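/-
S18 / wave 4 (helper21): NUMBER-FIELD DESCENT, part 1.

* `isDiscreteValuationRing_of_dedekind` : a valuation subring `V ≠ ⊤` of the fraction field of a
  Dedekind domain `R` with `R ⊆ V` is a discrete valuation ring (it is the localisation of `R` at
  the centre of `V`).
* `isDiscreteValuationRing_of_numberField` : every valuation subring `V ≠ ⊤` of a number field is a
  discrete valuation ring.
-/
import Mathlib

set_option autoImplicit false

noncomputable section

namespace Fermat.Agent.S18.H21

open IsLocalRing

section Dedekind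

variable {R K : Type*} [CommRing R] [IsDedekindDomain R] [Field K] [Algebra R K]
  [IsFractionRing R K]

/-- The centre on `R` of a valuation subring `V ⊇ R` of `K`. -/
def centre (V : ValuationSubring K) (hR : ∀ r : R, algebraMap R K r ∈ V) : Ideal R :=
  (maximalIdeal V).comap ((algebraMap R K).codRestrict V hR)

omit [IsDedekindDomain R] [IsFractionRing R K] in
theorem mem_centre_iff (V : ValuationSubring K) (hR : ∀ r : R, algebraMap R K r ∈ V) (r : R) :
    r ∈ centre V hR ↔ algebraMap R K r ∈ V.nonunits := by
  unfold centre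
  rw [Ideal.mem_comap, ValuationSubring.mem_nonunits_iff_exists_mem_maximalIdeal]
  constructor
  · intro h
    exact ⟨hR r, h⟩
  · rintro ⟨_, h⟩
    exact h

instance centre_isPrime (V : ValuationSubring K) (hR : ∀ r : R, algebraMap R K r ∈ V) :
    (centre V hR).IsPrime := by
  unfold centre
  exact Ideal.comap_isPrime _ _

theorem centre_ne_bot (V : ValuationSubring K) (hR : ∀ r : R, algebraMap R K r ∈ V)
    (hV : V ≠ ⊤) : centre V hR ≠ ⊥ := by
  obtain ⟨x, hx⟩ : ∃ x : K, x ∉ V := by
    by_contra h
    exact hV (eq_top_iff.mpr fun x _ => not_not.mp fun hx => h ⟨x, hx⟩)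
  have hx0 : x ≠ 0 := by
    rintro rfl
    exact hx (zero_mem V)
  -- `x⁻¹` is a nonunit of `V`
  have hxinv : x⁻¹ ∈ V.nonunits := by
    rw [ValuationSubring.mem_nonunits_iff]
    -- valuation x⁻¹ < 1
    have h1 : ¬ V.valuation x ≤ 1 := fun h => hx ((V.valuation_le_one_iff x).mp h)
    have h2 : 1 < V.valuation x := not_le.mp h1
    rw [map_inv₀]
    exact (inv_lt_one₀ (lt_trans zero_lt_one h2)).mpr h2
  obtain ⟨a, b, hb, hab⟩ := IsFractionRing.div_surjective (A := R) x⁻¹
  have hb0 : algebraMap R K b ≠ 0 :=
    (map_ne_zero_iff _ (IsFractionRing.injective R K)).mpr (nonZeroDivisors.ne_zero hb)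
  have ha : algebraMap R K a = x⁻¹ * algebraMap R K b := by
    rw [← hab, div_mul_cancel₀ _ hb0]
  have ha0 : a ≠ 0 := by
    rintro rfl
    rw [map_zero] at ha
    exact (mul_ne_zero (inv_ne_zero hx0) hb0) ha.symm
  intro hbot
  have hmem : a ∈ centre V hR := by
    rw [mem_centre_iff, ha, ValuationSubring.mem_nonunits_iff, map_mul]
    exact mul_lt_one_of_nonneg_of_lt_one_left zero_le
      ((ValuationSubring.mem_nonunits_iff V).mp hxinv) ((V.valuation_le_one_iff _).mpr (hR b))
  rw [hbot, Ideal.mem_bot] at hmem
  exact ha0 hmem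

/-- `V` is, as a subset of `K`, the localisation of `R` at the centre of `V`. -/
theorem mem_iff_mem_ofField (V : ValuationSubring K) (hR : ∀ r : R, algebraMap R K r ∈ V)
    (hV : V ≠ ⊤) (x : K) :
    x ∈ V ↔ x ∈ Localization.subalgebra.ofField K (centre V hR).primeCompl
      (centre V hR).primeCompl_le_nonZeroDivisors := by
  set P := centre V hR with hP
  set S := Localization.subalgebra.ofField K P.primeCompl P.primeCompl_le_nonZeroDivisors with hS
  have hPne : P ≠ ⊥ := centre_ne_bot V hR hV
  have : IsLocalization.AtPrime S P := by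
    rw [hS]; exact Localization.subalgebra.isLocalization_ofField K P.primeCompl _
  have : IsDiscreteValuationRing S :=
    IsLocalization.AtPrime.isDiscreteValuationRing_of_dedekind_domain R hPne S
  -- membership in `S`, explicitly
  have hmemS : ∀ y : K, y ∈ S ↔
      ∃ (a s : R) (_ : s ∈ P.primeCompl), y = algebraMap R K a * (algebraMap R K s)⁻¹ :=
    fun y => Iff.rfl
  -- elements of `R` outside `P` are units of `V`
  have hunit : ∀ s : R, s ∈ P.primeCompl → (algebraMap R K s)⁻¹ ∈ V := by
    intro s hs
    have h1 : algebraMap R K s ∉ V.nonunits := fun h => hs ((mem_centre_iff V hR s).mpr h)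
    rw [ValuationSubring.mem_nonunits_iff, not_lt] at h1
    have h2 : V.valuation (algebraMap R K s) = 1 :=
      le_antisymm ((V.valuation_le_one_iff _).mpr (hR s)) h1
    rw [← V.valuation_le_one_iff, map_inv₀, h2, inv_one]
  constructor
  · intro hx
    by_cases hx0 : x = 0
    · rw [hx0]; exact zero_mem S
    rcases ValuationRing.isInteger_or_isInteger (↥S) x with ⟨y, hy⟩ | ⟨y, hy⟩
    · rw [← hy]; exact y.2
    · -- `x⁻¹ = a / s` with `s ∉ P`
      obtain ⟨a, s, hs, hy'⟩ := (hmemS (y : K)).mp y.2
      have hxinv : x⁻¹ = algebraMap R K a * (algebraMap R K s)⁻¹ := by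
        rw [← hy', ← hy]; rfl
      by_cases ha : a ∈ P
      · -- then `x⁻¹` is a nonunit of `V`, contradiction with `x ∈ V`
        exfalso
        have h1 : V.valuation (algebraMap R K a) < 1 :=
          (ValuationSubring.mem_nonunits_iff V).mp ((mem_centre_iff V hR a).mp ha)
        have h2 : V.valuation (algebraMap R K s)⁻¹ ≤ 1 :=
          (V.valuation_le_one_iff _).mpr (hunit s hs)
        have h3 : V.valuation x⁻¹ < 1 := by
          rw [hxinv, map_mul]
          exact mul_lt_one_of_nonneg_of_lt_one_left zero_le h1 h2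
        have h4 : V.valuation x ≤ 1 := (V.valuation_le_one_iff _).mpr hx
        have h5 : V.valuation (x * x⁻¹) < 1 := by
          rw [map_mul, mul_comm]
          exact mul_lt_one_of_nonneg_of_lt_one_left zero_le h3 h4
        rw [mul_inv_cancel₀ hx0, map_one] at h5
        exact lt_irrefl _ h5
      · -- `x = s / a`
        have hs0 : algebraMap R K s ≠ 0 :=
          (map_ne_zero_iff _ (IsFractionRing.injective R K)).mpr
            (nonZeroDivisors.ne_zero (P.primeCompl_le_nonZeroDivisors hs))
        refine (hmemS x).mpr ⟨s, a, ha, ?_⟩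
        rw [← inv_inv x, hxinv, mul_inv, inv_inv, mul_comm]
  · intro hx
    obtain ⟨a, s, hs, rfl⟩ := (hmemS x).mp hx
    exact mul_mem (hR a) (hunit s hs)

/-- **(N1), Dedekind form.** A valuation subring `V ≠ ⊤` of the fraction field of a Dedekind
domain `R` which contains `R` is a discrete valuation ring. -/
theorem isDiscreteValuationRing_of_dedekind (V : ValuationSubring K)
    (hR : ∀ r : R, algebraMap R K r ∈ V) (hV : V ≠ ⊤) : IsDiscreteValuationRing V := by
  set P := centre V hR with hP
  set S := Localization.subalgebra.ofField K P.primeCompl P.primeCompl_le_nonZeroDivisors with hS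
  have hPne : P ≠ ⊥ := centre_ne_bot V hR hV
  have : IsLocalization.AtPrime S P := by
    rw [hS]; exact Localization.subalgebra.isLocalization_ofField K P.primeCompl _
  have : IsDiscreteValuationRing S :=
    IsLocalization.AtPrime.isDiscreteValuationRing_of_dedekind_domain R hPne S
  have hiff : ∀ x : K, x ∈ V ↔ x ∈ S := mem_iff_mem_ofField V hR hV
  let e : S ≃+* V :=
    { toFun := fun x => ⟨x.1, (hiff x.1).mpr x.2⟩
      invFun := fun x => ⟨x.1, (hiff x.1).mp x.2⟩
      left_inv := fun _ => rfl
      right_inv := fun _ => rfl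
      map_mul' := fun _ _ => rfl
      map_add' := fun _ _ => rfl }
  exact IsDiscreteValuationRing.RingEquivClass.isDiscreteValuationRing e

/-- Every element of `V` is congruent, modulo the maximal ideal, to an element of `R`:
the residue field of `V` is `R / centre`. -/
theorem exists_sub_mem_nonunits (V : ValuationSubring K) (hR : ∀ r : R, algebraMap R K r ∈ V)
    (hV : V ≠ ⊤) (x : K) (hx : x ∈ V) : ∃ r : R, x - algebraMap R K r ∈ V.nonunits := by
  set P := centre V hR with hP
  have hPne : P ≠ ⊥ := centre_ne_bot V hR hV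
  have hPmax : P.IsMaximal := Ideal.IsPrime.isMaximal inferInstance hPne
  obtain ⟨a, s, hs, rfl⟩ := (mem_iff_mem_ofField V hR hV x).mp hx
  -- `s t ≡ 1 mod P`
  obtain ⟨t, ht⟩ := (Ideal.Quotient.maximal_ideal_iff_isField_quotient P).mp hPmax |>.mul_inv_cancel
    (a := Ideal.Quotient.mk P s)
    (fun h => hs (Ideal.Quotient.eq_zero_iff_mem.mp h))
  obtain ⟨t, rfl⟩ := Ideal.Quotient.mk_surjective t
  have hst : s * t - 1 ∈ P := by
    rw [← Ideal.Quotient.eq, map_mul, ht, map_one]
  have hs0 : algebraMap R K s ≠ 0 :=
    (map_ne_zero_iff _ (IsFractionRing.injective R K)).mpr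
      (nonZeroDivisors.ne_zero (P.primeCompl_le_nonZeroDivisors hs))
  refine ⟨a * t, ?_⟩
  have h1 : algebraMap R K a * (algebraMap R K s)⁻¹ - algebraMap R K (a * t)
      = -(algebraMap R K (s * t - 1) * (algebraMap R K a * (algebraMap R K s)⁻¹)) := by
    rw [map_sub, map_mul, map_mul, map_one]
    field_simp
    ring
  rw [h1, ValuationSubring.mem_nonunits_iff, Valuation.map_neg, map_mul]
  exact mul_lt_one_of_nonneg_of_lt_one_left zero_le
    ((ValuationSubring.mem_nonunits_iff V).mp ((mem_centre_iff V hR _).mp hst))
    ((V.valuation_le_one_iff _).mpr hx)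

end Dedekind

section NumberField

variable {K : Type*} [Field K] [NumberField K]

omit [NumberField K] in
/-- The ring of integers lies in every valuation subring. -/
theorem ringOfIntegers_mem (V : ValuationSubring K) (r : NumberField.RingOfIntegers K) :
    algebraMap (NumberField.RingOfIntegers K) K r ∈ V := by
  have h1 : IsIntegral ℤ (algebraMap (NumberField.RingOfIntegers K) K r) :=
    NumberField.RingOfIntegers.isIntegral_coe r
  have h2 : IsIntegral V (algebraMap (NumberField.RingOfIntegers K) K r) := h1.tower_top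
  obtain ⟨y, hy⟩ := (IsIntegrallyClosed.isIntegral_iff (R := V) (K := K)).mp h2
  rw [← hy]
  exact y.2

/-- **(N1)** Every valuation subring `V ≠ ⊤` of a number field is a discrete valuation ring. -/
theorem isDiscreteValuationRing_of_numberField (V : ValuationSubring K) (hV : V ≠ ⊤) :
    IsDiscreteValuationRing V :=
  isDiscreteValuationRing_of_dedekind (R := NumberField.RingOfIntegers K) V
    (ringOfIntegers_mem V) hV

/-- **(N1)** The residue field of a valuation subring `V ≠ ⊤` of a number field is finite. -/
theorem finite_residueField_of_numberField (V : ValuationSubring K) (hV : V ≠ ⊤) :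
    Finite (IsLocalRing.ResidueField V) := by
  set P := centre (R := NumberField.RingOfIntegers K) V (ringOfIntegers_mem V) with hP
  have hPne : P ≠ ⊥ := centre_ne_bot V _ hV
  have : Finite (NumberField.RingOfIntegers K ⧸ P) := Ideal.finiteQuotientOfFreeOfNeBot P hPne
  let φ : NumberField.RingOfIntegers K →+* V :=
    (algebraMap (NumberField.RingOfIntegers K) K).codRestrict V (ringOfIntegers_mem V)
  let f : NumberField.RingOfIntegers K → IsLocalRing.ResidueField V :=
    fun r => IsLocalRing.residue V (φ r)
  have hf : Function.Surjective f := by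
    intro y
    obtain ⟨x, rfl⟩ := IsLocalRing.residue_surjective y
    obtain ⟨r, hr⟩ := exists_sub_mem_nonunits (R := NumberField.RingOfIntegers K) V
      (ringOfIntegers_mem V) hV x.1 x.2
    refine ⟨r, ?_⟩
    show IsLocalRing.residue V (φ r) = IsLocalRing.residue V x
    rw [eq_comm, ← sub_eq_zero, ← map_sub, IsLocalRing.residue_eq_zero_iff]
    obtain ⟨h, hmem⟩ := (ValuationSubring.mem_nonunits_iff_exists_mem_maximalIdeal).mp hr
    exact hmem
  -- `f` factors through the finite quotient `𝓞 / P`
  have hfac : ∀ r r' : NumberField.RingOfIntegers K,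
      Ideal.Quotient.mk P r = Ideal.Quotient.mk P r' → f r = f r' := by
    intro r r' h
    have h1 : r - r' ∈ P := Ideal.Quotient.eq.mp h
    have h2 : φ (r - r') ∈ IsLocalRing.maximalIdeal V := h1
    show IsLocalRing.residue V (φ r) = IsLocalRing.residue V (φ r')
    rw [← sub_eq_zero, ← map_sub, ← map_sub, IsLocalRing.residue_eq_zero_iff]
    exact h2
  let g : NumberField.RingOfIntegers K ⧸ P → IsLocalRing.ResidueField V :=
    fun q => Quotient.liftOn' q f (fun r r' h => hfac r r' (Quotient.sound' h))
  refine Finite.of_surjective g ?_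
  intro y
  obtain ⟨r, rfl⟩ := hf y
  exact ⟨Ideal.Quotient.mk P r, rfl⟩

end NumberField

end Fermat.Agent.S18.H21
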