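/-
S18 / wave 4 (helper21): step G3 of the core-2 descent (`exists_descent`, report #1509).

For a valuation subring `A ≠ ⊤` of a field `L` algebraic over a subfield `K₀`, the induced
valuation subring `A.comap (algebraMap K₀ L)` of `K₀` is `≠ ⊤`; if `K₀` is a number field it is a
discrete valuation ring with finite residue field.  Stated in the exact shape of the target:
`IsDiscreteValuationRing ↥(A.comap (algebraMap K₀ (AlgebraicClosure ℚ)))` for
`K₀ : IntermediateField ℚ (AlgebraicClosure ℚ)` finite-dimensional over `ℚ`.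
-/
import Fermat.Agent.S18.H21.NFDescent

set_option autoImplicit false

noncomputable section

namespace Fermat.Agent.S18.H21

section Comap

variable {L : Type*} [Field L] (A : ValuationSubring L)

/-- If `L/K₀` is algebraic and `A ≠ ⊤`, then `A ∩ K₀ ≠ ⊤` (`A` is integrally closed). -/
theorem comap_ne_top_of_isAlgebraic (hA : A ≠ ⊤) {K₀ : Type*} [Field K₀] [Algebra K₀ L]
    [Algebra.IsAlgebraic K₀ L] : A.comap (algebraMap K₀ L) ≠ ⊤ := by
  intro htop
  apply hA
  rw [eq_top_iff]
  intro x _
  have hK₀ : ∀ a : K₀, algebraMap K₀ L a ∈ A := by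
    intro a
    have : a ∈ A.comap (algebraMap K₀ L) := by rw [htop]; trivial
    exact this
  let ψ : K₀ →+* A := (algebraMap K₀ L).codRestrict A hK₀
  have hint : IsIntegral K₀ x := (Algebra.IsAlgebraic.isAlgebraic x).isIntegral
  obtain ⟨p, hp, hpx⟩ := hint
  have hint' : IsIntegral A x := by
    refine ⟨p.map ψ, hp.map ψ, ?_⟩
    rw [Polynomial.eval₂_map]
    exact hpx
  obtain ⟨y, hy⟩ := (IsIntegrallyClosed.isIntegral_iff (R := A) (K := L)).mp hint'
  rw [← hy]
  exact y.2

/-- **(G3)** `A ∩ K₀` is a discrete valuation ring for a number field `K₀` over which `L` is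
algebraic, `A ≠ ⊤`. -/
theorem isDiscreteValuationRing_comap_of_ne_top (hA : A ≠ ⊤) {K₀ : Type*} [Field K₀]
    [NumberField K₀] [Algebra K₀ L] [Algebra.IsAlgebraic K₀ L] :
    IsDiscreteValuationRing ↥(A.comap (algebraMap K₀ L)) :=
  isDiscreteValuationRing_of_numberField _ (comap_ne_top_of_isAlgebraic A hA)

/-- **(G3)** the residue field of `A ∩ K₀` is finite. -/
theorem finite_residueField_comap_of_ne_top (hA : A ≠ ⊤) {K₀ : Type*} [Field K₀]
    [NumberField K₀] [Algebra K₀ L] [Algebra.IsAlgebraic K₀ L] :
    Finite (IsLocalRing.ResidueField ↥(A.comap (algebraMap K₀ L))) :=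
  finite_residueField_of_numberField _ (comap_ne_top_of_isAlgebraic A hA)

end Comap

section Qbar

/-- a finite-dimensional intermediate field of `ℚ̄/ℚ` is a number field. -/
theorem numberField_of_finiteDimensional (K₀ : IntermediateField ℚ (AlgebraicClosure ℚ))
    [FiniteDimensional ℚ K₀] : NumberField K₀ :=
  { to_charZero := inferInstance
    to_finiteDimensional := inferInstance }

/-- **(G3), target shape.**  For `A ≠ ⊤` a valuation subring of `ℚ̄` and a number field
`K₀ ⊆ ℚ̄`, the ring `A ∩ K₀` is a discrete valuation ring. -/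
theorem isDiscreteValuationRing_comap_qbar (A : ValuationSubring (AlgebraicClosure ℚ))
    (hA : A ≠ ⊤) (K₀ : IntermediateField ℚ (AlgebraicClosure ℚ)) [FiniteDimensional ℚ K₀] :
    IsDiscreteValuationRing ↥(A.comap (algebraMap K₀ (AlgebraicClosure ℚ))) := by
  have : NumberField K₀ := numberField_of_finiteDimensional K₀
  have : Algebra.IsAlgebraic ℚ (AlgebraicClosure ℚ) := AlgebraicClosure.isAlgebraic ℚ
  have : Algebra.IsAlgebraic K₀ (AlgebraicClosure ℚ) :=
    Algebra.IsAlgebraic.tower_top (K := ℚ) K₀
  exact isDiscreteValuationRing_comap_of_ne_top A hA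

/-- **(G3), target shape.** the residue field of `A ∩ K₀` is finite. -/
theorem finite_residueField_comap_qbar (A : ValuationSubring (AlgebraicClosure ℚ))
    (hA : A ≠ ⊤) (K₀ : IntermediateField ℚ (AlgebraicClosure ℚ)) [FiniteDimensional ℚ K₀] :
    Finite (IsLocalRing.ResidueField ↥(A.comap (algebraMap K₀ (AlgebraicClosure ℚ)))) := by
  have : NumberField K₀ := numberField_of_finiteDimensional K₀
  have : Algebra.IsAlgebraic ℚ (AlgebraicClosure ℚ) := AlgebraicClosure.isAlgebraic ℚ
  have : Algebra.IsAlgebraic K₀ (AlgebraicClosure ℚ) :=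
    Algebra.IsAlgebraic.tower_top (K := ℚ) K₀
  exact finite_residueField_comap_of_ne_top A hA

/-- finitely many elements of `ℚ̄` generate a number field. -/
theorem finiteDimensional_adjoin_finset (Z : Finset (AlgebraicClosure ℚ)) :
    FiniteDimensional ℚ (IntermediateField.adjoin ℚ (Z : Set (AlgebraicClosure ℚ))) :=
  have : Algebra.IsAlgebraic ℚ (AlgebraicClosure ℚ) := AlgebraicClosure.isAlgebraic ℚ
  IntermediateField.finiteDimensional_adjoin fun x _ => Algebra.IsIntegral.isIntegral x

end Qbar

end Fermat.Agent.S18.H21
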