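/-
S18 / Program J, core 2, leaf K2-N (sub-skeleton of helper8, `H8/DescentSkel.lean`):
the leaves N-MEM (`dsetup_mem_iff`), N-GAUSS (`dsetup_gauss`), N-TR (`dsetup_transc`),
statements VERBATIM (helper21).
-/
import Mathlib
import Fermat.Agent.S18.H19.Core2Defs

set_option autoImplicit false

open IntermediateField Polynomial

noncomputable section

namespace Fermat.Agent.S18.H21

open Fermat.Agent.S18.H19

section Leaves

variable {k K : Type*} [Field k] [Field K] [Algebra k K]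
  (A : ValuationSubring K) {F : Type*} [Field F] [Algebra K F] (O : ValuationSubring F)
  (K₀ : IntermediateField k K) (F₀ : IntermediateField K₀ F) (x : F) (hx₀ : x ∈ F₀)

/-- the structure map `A ∩ K₀ → K`. -/
def comapHom : ↥(A.comap (algebraMap K₀ K)) →+* K :=
  (algebraMap K₀ K).comp (A.comap (algebraMap K₀ K)).subtype

theorem comapHom_injective : Function.Injective (comapHom A K₀) :=
  (algebraMap K₀ K).injective.comp Subtype.val_injective

theorem comapHom_mem (a : ↥(A.comap (algebraMap K₀ K))) : comapHom A K₀ a ∈ A := a.2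

/-- the image in `F` of a polynomial expression in `x₀ = ⟨x, _⟩` over `A ∩ K₀`. -/
theorem algebraMap_aeval_comap (P : (↥(A.comap (algebraMap K₀ K)))[X]) :
    letI := algComap (A.comap (algebraMap K₀ K)) F₀
    algebraMap F₀ F (aeval (⟨x, hx₀⟩ : F₀) P) = aeval x (P.map (comapHom A K₀)) := by
  let _ := algComap (A.comap (algebraMap K₀ K)) F₀
  rw [aeval_def, aeval_def, Polynomial.hom_eval₂, Polynomial.eval₂_map]
  rfl

/-- (N-MEM) `DSetup.mem_iff`. -/
theorem dsetup_mem_iff (hmem : ∀ a : K, algebraMap K F a ∈ O ↔ a ∈ A) :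
    letI := algComap (A.comap (algebraMap K₀ K)) F₀
    ∀ a b : ↥(A.comap (algebraMap K₀ K)), b ≠ 0 →
      (algebraMap ↥(A.comap (algebraMap K₀ K)) F₀ a / algebraMap ↥(A.comap (algebraMap K₀ K)) F₀ b
        ∈ O.comap (algebraMap F₀ F) ↔ b ∣ a) := by
  let _ := algComap (A.comap (algebraMap K₀ K)) F₀
  intro a b hb
  have hb0 : (b : K₀) ≠ 0 := fun h => hb (Subtype.ext h)
  have key : (algebraMap F₀ F) (algebraMap ↥(A.comap (algebraMap K₀ K)) F₀ a /
      algebraMap ↥(A.comap (algebraMap K₀ K)) F₀ b)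
      = algebraMap K F (algebraMap K₀ K ((a : K₀) / (b : K₀))) := by
    rw [map_div₀, map_div₀, map_div₀]
    rfl
  rw [ValuationSubring.mem_comap, key, hmem]
  constructor
  · intro h
    refine ⟨⟨(a : K₀) / (b : K₀), h⟩, Subtype.ext ?_⟩
    show (a : K₀) = (b : K₀) * ((a : K₀) / (b : K₀))
    field_simp
  · rintro ⟨c, rfl⟩
    have h1 : ((b * c : ↥(A.comap (algebraMap K₀ K))) : K₀) / (b : K₀) = (c : K₀) := by
      show (b : K₀) * (c : K₀) / (b : K₀) = (c : K₀)
      field_simp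
    rw [h1]
    exact c.2

/-- (N-GAUSS) `DSetup.gauss`. -/
theorem dsetup_gauss
    (hgauss : ∀ p : Polynomial K, (∀ i, p.coeff i ∈ A) → (∃ i, p.coeff i ≠ 0 ∧ (p.coeff i)⁻¹ ∈ A) →
      Polynomial.aeval x p ∈ O ∧ (Polynomial.aeval x p)⁻¹ ∈ O) :
    letI := algComap (A.comap (algebraMap K₀ K)) F₀
    ∀ P : (↥(A.comap (algebraMap K₀ K)))[X], (∃ i, IsUnit (P.coeff i)) →
      aeval (⟨x, hx₀⟩ : F₀) P ∈ O.comap (algebraMap F₀ F) ∧
      (aeval (⟨x, hx₀⟩ : F₀) P)⁻¹ ∈ O.comap (algebraMap F₀ F) := by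
  let _ := algComap (A.comap (algebraMap K₀ K)) F₀
  rintro P ⟨i, hi⟩
  have hcoeff : ∀ j, (P.map (comapHom A K₀)).coeff j ∈ A := by
    intro j
    rw [Polynomial.coeff_map]
    exact comapHom_mem A K₀ _
  have hunit : ∃ j, (P.map (comapHom A K₀)).coeff j ≠ 0 ∧
      ((P.map (comapHom A K₀)).coeff j)⁻¹ ∈ A := by
    refine ⟨i, ?_, ?_⟩
    · rw [Polynomial.coeff_map]
      exact (map_ne_zero_iff _ (comapHom_injective A K₀)).mpr hi.ne_zero
    · obtain ⟨v, hv⟩ := isUnit_iff_exists_inv.mp hi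
      have h1 : comapHom A K₀ (P.coeff i) * comapHom A K₀ v = 1 := by
        rw [← map_mul, hv, map_one]
      rw [Polynomial.coeff_map, inv_eq_of_mul_eq_one_right h1]
      exact comapHom_mem A K₀ v
  obtain ⟨h1, h2⟩ := hgauss _ hcoeff hunit
  constructor
  · rw [ValuationSubring.mem_comap, algebraMap_aeval_comap]
    exact h1
  · rw [ValuationSubring.mem_comap, map_inv₀, algebraMap_aeval_comap]
    exact h2

/-- (N-TR) `DSetup.transc`. -/
theorem dsetup_transc (hx : Transcendental K x) :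
    letI := algComap (A.comap (algebraMap K₀ K)) F₀
    Transcendental ↥(A.comap (algebraMap K₀ K)) (⟨x, hx₀⟩ : F₀) := by
  let _ := algComap (A.comap (algebraMap K₀ K)) F₀
  rintro ⟨P, hP0, hP⟩
  apply hx
  refine ⟨P.map (comapHom A K₀), ?_, ?_⟩
  · exact (Polynomial.map_ne_zero_iff (comapHom_injective A K₀)).mpr hP0
  · rw [← algebraMap_aeval_comap A K₀ F₀ x hx₀ P, hP, map_zero]

end Leaves

end Fermat.Agent.S18.H21
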