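/-
S18 / wave 4 (helper21): the generic core of step G2 of the core-2 descent (`exists_descent`,
report #1509).  Pure field theory, Mathlib only.

`F/K` a field extension, `x ∈ F`, `θ : Fin μ → F` spanning `F` over `K(x)`, `T ⊆ F` finite.
Then there is a finite set `Z ⊆ K` such that for every subfield `K₀ ⊇ Z` of `K` the set
`{∑ rᵢ θᵢ | rᵢ ∈ K₀(x)}` is a subfield `F₀` of `F` containing `K₀(x)`, the `θᵢ` and `T`
(`exists_finset_good`).  Here `K₀(x) = ratClosure K₀ x` is the subfield of `F` generated by `K₀`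
and `x`.
-/
import Mathlib

set_option autoImplicit false

noncomputable section

namespace Fermat.Agent.S18.H21

open IntermediateField Polynomial

section GoodField

variable {K F : Type*} [Field K] [Field F] [Algebra K F]

/-- `K₀(x)` as a subfield of `F`. -/
def ratClosure (K₀ : Subfield K) (x : F) : Subfield F :=
  Subfield.closure ((algebraMap K F) '' (K₀ : Set K) ∪ {x})

theorem algebraMap_mem_ratClosure (K₀ : Subfield K) (x : F) {a : K} (ha : a ∈ K₀) :
    algebraMap K F a ∈ ratClosure K₀ x :=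
  Subfield.subset_closure (Or.inl ⟨a, ha, rfl⟩)

theorem self_mem_ratClosure (K₀ : Subfield K) (x : F) : x ∈ ratClosure K₀ x :=
  Subfield.subset_closure (Or.inr rfl)

theorem ratClosure_mono {K₀ K₁ : Subfield K} (h : K₀ ≤ K₁) (x : F) :
    ratClosure K₀ x ≤ ratClosure K₁ x := by
  apply Subfield.closure_mono
  rintro y (⟨a, ha, rfl⟩ | hy)
  · exact Or.inl ⟨a, h ha, rfl⟩
  · exact Or.inr hy

/-- a polynomial in `x` with coefficients in `K₀` lies in `K₀(x)`. -/
theorem aeval_mem_ratClosure (K₀ : Subfield K) (x : F) (P : K[X]) (hP : ∀ n, P.coeff n ∈ K₀) :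
    aeval x P ∈ ratClosure K₀ x := by
  rw [aeval_eq_sum_range]
  refine sum_mem fun n _ => ?_
  rw [Algebra.smul_def]
  exact mul_mem (algebraMap_mem_ratClosure K₀ x (hP n)) (pow_mem (self_mem_ratClosure K₀ x) n)

theorem coeff_mem_of_coeffs_subset {K₀ : Subfield K} {P : K[X]}
    (h : (P.coeffs : Set K) ⊆ K₀) (n : ℕ) : P.coeff n ∈ K₀ := by
  by_cases h0 : P.coeff n = 0
  · rw [h0]; exact zero_mem K₀
  · exact h (Finset.mem_coe.mpr (Polynomial.coeff_mem_coeffs h0))

/-- finitely many elements of `K(x)` lie in `K₀(x)` as soon as `K₀` contains a suitable finite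
set of constants. -/
theorem exists_finset_forall_mem_ratClosure (x : F) (s : Finset K⟮x⟯) :
    ∃ Z : Finset K, ∀ K₀ : Subfield K, (Z : Set K) ⊆ K₀ →
      ∀ c ∈ s, (c : F) ∈ ratClosure K₀ x := by
  classical
  induction s using Finset.induction_on with
  | empty => exact ⟨∅, fun _ _ c hc => absurd hc (Finset.notMem_empty c)⟩
  | insert c s _ ih =>
      obtain ⟨Z, hZ⟩ := ih
      obtain ⟨r, t, hrt⟩ := (IntermediateField.mem_adjoin_simple_iff K (c : F)).mp c.2
      refine ⟨Z ∪ (r.coeffs ∪ t.coeffs), fun K₀ hK₀ d hd => ?_⟩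
      have hZ' : (Z : Set K) ⊆ K₀ := fun z hz => hK₀ (by
        rw [Finset.coe_union]; exact Or.inl hz)
      have hr : (r.coeffs : Set K) ⊆ K₀ := fun z hz => hK₀ (by
        rw [Finset.coe_union, Finset.coe_union]; exact Or.inr (Or.inl hz))
      have ht : (t.coeffs : Set K) ⊆ K₀ := fun z hz => hK₀ (by
        rw [Finset.coe_union, Finset.coe_union]; exact Or.inr (Or.inr hz))
      rcases Finset.mem_insert.mp hd with rfl | hd
      · rw [hrt]
        exact div_mem (aeval_mem_ratClosure K₀ x r (coeff_mem_of_coeffs_subset hr))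
          (aeval_mem_ratClosure K₀ x t (coeff_mem_of_coeffs_subset ht))
      · exact hZ K₀ hZ' d hd

variable (x : F) {μ : ℕ} (θ : Fin μ → F)

/-- the `K₀(x)`-span of the `θᵢ`. -/
def ratSpan (K₀ : Subfield K) : Submodule (ratClosure K₀ x) F :=
  Submodule.span (ratClosure K₀ x) (Set.range θ)

theorem mem_ratSpan_iff (K₀ : Subfield K) (f : F) :
    f ∈ ratSpan x θ K₀ ↔
      ∃ r : Fin μ → F, (∀ i, r i ∈ ratClosure K₀ x) ∧ f = ∑ i, r i * θ i := by
  unfold ratSpan
  rw [Submodule.mem_span_range_iff_exists_fun]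
  constructor
  · rintro ⟨c, rfl⟩
    exact ⟨fun i => (c i : F), fun i => (c i).2, Finset.sum_congr rfl fun i _ => rfl⟩
  · rintro ⟨r, hr, rfl⟩
    exact ⟨fun i => ⟨r i, hr i⟩, Finset.sum_congr rfl fun i _ => rfl⟩

theorem theta_mem_ratSpan (K₀ : Subfield K) (i : Fin μ) : θ i ∈ ratSpan x θ K₀ :=
  Submodule.subset_span ⟨i, rfl⟩

/-- a `K(x)`-combination of the `θᵢ` with coefficients in `K₀(x)` lies in the span. -/
theorem sum_smul_mem_ratSpan (K₀ : Subfield K) (c : Fin μ → K⟮x⟯)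
    (hc : ∀ i, (c i : F) ∈ ratClosure K₀ x) : ∑ i, c i • θ i ∈ ratSpan x θ K₀ := by
  rw [mem_ratSpan_iff]
  exact ⟨fun i => (c i : F), hc, Finset.sum_congr rfl fun i _ => rfl⟩

/-- the span is closed under multiplication when the structure constants lie in `K₀(x)`. -/
theorem mul_mem_ratSpan (K₀ : Subfield K)
    (hθθ : ∀ i j, θ i * θ j ∈ ratSpan x θ K₀) {a b : F}
    (ha : a ∈ ratSpan x θ K₀) (hb : b ∈ ratSpan x θ K₀) : a * b ∈ ratSpan x θ K₀ := by
  unfold ratSpan at ha hb ⊢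
  induction ha using Submodule.span_induction with
  | mem y hy =>
      obtain ⟨i, rfl⟩ := hy
      induction hb using Submodule.span_induction with
      | mem z hz =>
          obtain ⟨j, rfl⟩ := hz
          exact hθθ i j
      | zero => rw [mul_zero]; exact Submodule.zero_mem _
      | add z w _ _ hz hw => rw [mul_add]; exact Submodule.add_mem _ hz hw
      | smul c z _ hz => rw [mul_smul_comm]; exact Submodule.smul_mem _ c hz
  | zero => rw [zero_mul]; exact Submodule.zero_mem _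
  | add y z _ _ hy hz => rw [add_mul]; exact Submodule.add_mem _ hy hz
  | smul c y _ hy => rw [smul_mul_assoc]; exact Submodule.smul_mem _ c hy

/-- the span is closed under inverses when it is a subring. -/
theorem inv_mem_ratSpan (K₀ : Subfield K)
    (hθθ : ∀ i j, θ i * θ j ∈ ratSpan x θ K₀) (h1 : (1 : F) ∈ ratSpan x θ K₀) {a : F}
    (ha : a ∈ ratSpan x θ K₀) : a⁻¹ ∈ ratSpan x θ K₀ := by
  by_cases ha0 : a = 0
  · rw [ha0, inv_zero]; exact Submodule.zero_mem _
  have hfd : FiniteDimensional (ratClosure K₀ x) (ratSpan x θ K₀) :=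
    FiniteDimensional.span_of_finite _ (Set.finite_range θ)
  let φ : ratSpan x θ K₀ →ₗ[ratClosure K₀ x] ratSpan x θ K₀ :=
    (LinearMap.mulLeft (ratClosure K₀ x) a).restrict
      (fun m hm => mul_mem_ratSpan x θ K₀ hθθ ha hm)
  have hinj : Function.Injective φ := by
    intro m m' h
    have h' : a * (m : F) = a * (m' : F) := congrArg Subtype.val h
    exact Subtype.ext (mul_left_cancel₀ ha0 h')
  obtain ⟨g, hg⟩ := (LinearMap.injective_iff_surjective.mp hinj) ⟨1, h1⟩
  have hg' : a * (g : F) = 1 := congrArg Subtype.val hg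
  have : a⁻¹ = (g : F) := inv_eq_of_mul_eq_one_right hg'
  rw [this]
  exact g.2

/-- `K₀(x) ⊆ K(x)`. -/
theorem ratClosure_le_adjoin (K₀ : Subfield K) : ratClosure K₀ x ≤ (K⟮x⟯).toSubfield := by
  unfold ratClosure
  rw [Subfield.closure_le]
  rintro y (⟨a, -, rfl⟩ | hy)
  · exact (K⟮x⟯).algebraMap_mem a
  · rw [Set.mem_singleton_iff] at hy
    rw [hy]
    exact IntermediateField.mem_adjoin_simple_self K x

/-- **G2, core.**  There is a finite set `Z ⊆ K` such that for every subfield `K₀ ⊇ Z` the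
`K₀(x)`-span of the `θᵢ` is a subfield of `F` containing `K₀(x)`, the `θᵢ` and `T`. -/
theorem exists_finset_good (hspan : ⊤ ≤ Submodule.span K⟮x⟯ (Set.range θ)) (T : Finset F) :
    ∃ Z : Finset K, ∀ K₀ : Subfield K, (Z : Set K) ⊆ K₀ →
      ∃ F₀ : Subfield F, ratClosure K₀ x ≤ F₀ ∧ (∀ i, θ i ∈ F₀) ∧ (∀ t ∈ T, t ∈ F₀) ∧
        ∀ f : F, f ∈ F₀ ↔
          ∃ r : Fin μ → F, (∀ i, r i ∈ ratClosure K₀ x) ∧ f = ∑ i, r i * θ i := by
  classical
  have hrep : ∀ f : F, ∃ c : Fin μ → K⟮x⟯, ∑ i, c i • θ i = f := fun f =>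
    (Submodule.mem_span_range_iff_exists_fun _).mp (hspan Submodule.mem_top)
  choose coord hcoord using hrep
  let s : Finset K⟮x⟯ :=
    ((Finset.univ : Finset (Fin μ × Fin μ × Fin μ)).image
        fun q => coord (θ q.1 * θ q.2.1) q.2.2) ∪
      ((Finset.univ : Finset (Fin μ)).image fun k => coord 1 k) ∪
      ((T ×ˢ (Finset.univ : Finset (Fin μ))).image fun q => coord q.1 q.2)
  obtain ⟨Z, hZ⟩ := exists_finset_forall_mem_ratClosure x s
  refine ⟨Z, fun K₀ hK₀ => ?_⟩
  have hs := hZ K₀ hK₀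
  have hθθ : ∀ i j, θ i * θ j ∈ ratSpan x θ K₀ := by
    intro i j
    rw [← hcoord (θ i * θ j)]
    refine sum_smul_mem_ratSpan x θ K₀ _ fun k => hs _ ?_
    exact Finset.mem_union_left _ (Finset.mem_union_left _
      (Finset.mem_image.mpr ⟨(i, j, k), Finset.mem_univ _, rfl⟩))
  have h1 : (1 : F) ∈ ratSpan x θ K₀ := by
    rw [← hcoord 1]
    refine sum_smul_mem_ratSpan x θ K₀ _ fun k => hs _ ?_
    exact Finset.mem_union_left _ (Finset.mem_union_right _
      (Finset.mem_image.mpr ⟨k, Finset.mem_univ _, rfl⟩))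
  have hT : ∀ t ∈ T, t ∈ ratSpan x θ K₀ := by
    intro t ht
    rw [← hcoord t]
    refine sum_smul_mem_ratSpan x θ K₀ _ fun k => hs _ ?_
    exact Finset.mem_union_right _
      (Finset.mem_image.mpr ⟨(t, k), Finset.mem_product.mpr ⟨ht, Finset.mem_univ _⟩, rfl⟩)
  let F₀ : Subfield F :=
    { carrier := ratSpan x θ K₀
      mul_mem' := fun ha hb => mul_mem_ratSpan x θ K₀ hθθ ha hb
      one_mem' := h1
      add_mem' := fun ha hb => Submodule.add_mem _ ha hb
      zero_mem' := Submodule.zero_mem _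
      neg_mem' := fun ha => Submodule.neg_mem _ ha
      inv_mem' := fun a ha => inv_mem_ratSpan x θ K₀ hθθ h1 ha }
  refine ⟨F₀, ?_, fun i => theta_mem_ratSpan x θ K₀ i, hT, fun f => mem_ratSpan_iff x θ K₀ f⟩
  intro r hr
  have h2 := (ratSpan x θ K₀).smul_mem (⟨r, hr⟩ : ratClosure K₀ x) h1
  have h3 : (⟨r, hr⟩ : ratClosure K₀ x) • (1 : F) = r := mul_one r
  rw [h3] at h2
  exact h2

/-- **GOOD**: if the `θᵢ` are linearly independent over `K(x)`, the `K(x)`-coordinates of an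
element of the `K₀(x)`-span lie in `K₀(x)`. -/
theorem coord_mem_ratClosure (hθ : LinearIndependent K⟮x⟯ θ) (K₀ : Subfield K) {f : F}
    (hf : f ∈ ratSpan x θ K₀) (c : Fin μ → K⟮x⟯) (hc : ∑ i, c i • θ i = f) :
    ∀ i, (c i : F) ∈ ratClosure K₀ x := by
  obtain ⟨r, hr, hfr⟩ := (mem_ratSpan_iff x θ K₀ f).mp hf
  let c' : Fin μ → K⟮x⟯ := fun i => ⟨r i, ratClosure_le_adjoin x K₀ (hr i)⟩
  have hsum : ∑ i, (c' i - c i) • θ i = 0 := by
    simp only [sub_smul, Finset.sum_sub_distrib]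
    rw [hc, sub_eq_zero, hfr]
    exact Finset.sum_congr rfl fun i _ => rfl
  intro i
  have h0 := Fintype.linearIndependent_iff.mp hθ (fun i => c' i - c i) hsum i
  have h1 : c i = c' i := (sub_eq_zero.mp h0).symm
  rw [h1]
  exact hr i

/-- normal form of the elements of `K₀(x)`: quotients of polynomials in `x` over `K₀`. -/
theorem exists_eval₂_div_of_mem_ratClosure (K₀ : Subfield K) {r : F}
    (hr : r ∈ ratClosure K₀ x) :
    ∃ P Q : (↥K₀)[X], eval₂ ((algebraMap K F).comp K₀.subtype) x Q ≠ 0 ∧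
      r = eval₂ ((algebraMap K F).comp K₀.subtype) x P /
        eval₂ ((algebraMap K F).comp K₀.subtype) x Q := by
  unfold ratClosure at hr
  induction hr using Subfield.closure_induction with
  | mem y hy =>
      rcases hy with ⟨a, ha, rfl⟩ | hy
      · refine ⟨C ⟨a, ha⟩, 1, by rw [eval₂_one]; exact one_ne_zero, ?_⟩
        rw [eval₂_C, eval₂_one, div_one]; rfl
      · rw [Set.mem_singleton_iff] at hy
        refine ⟨X, 1, by rw [eval₂_one]; exact one_ne_zero, ?_⟩
        rw [eval₂_X, eval₂_one, div_one, hy]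
  | one =>
      exact ⟨1, 1, by rw [eval₂_one]; exact one_ne_zero, by rw [eval₂_one, div_one]⟩
  | add y z _ _ hy hz =>
      obtain ⟨P, Q, hQ, rfl⟩ := hy
      obtain ⟨P', Q', hQ', rfl⟩ := hz
      refine ⟨P * Q' + P' * Q, Q * Q', by rw [eval₂_mul]; exact mul_ne_zero hQ hQ', ?_⟩
      rw [eval₂_add, eval₂_mul, eval₂_mul, eval₂_mul]
      field_simp
  | neg y _ hy =>
      obtain ⟨P, Q, hQ, rfl⟩ := hy
      exact ⟨-P, Q, hQ, by rw [eval₂_neg, neg_div]⟩
  | inv y _ hy =>
      obtain ⟨P, Q, hQ, rfl⟩ := hy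
      by_cases hP : eval₂ ((algebraMap K F).comp K₀.subtype) x P = 0
      · refine ⟨0, 1, by rw [eval₂_one]; exact one_ne_zero, ?_⟩
        rw [hP, zero_div, inv_zero, eval₂_zero, zero_div]
      · exact ⟨Q, P, hP, by rw [inv_div]⟩
  | mul y z _ _ hy hz =>
      obtain ⟨P, Q, hQ, rfl⟩ := hy
      obtain ⟨P', Q', hQ', rfl⟩ := hz
      refine ⟨P * P', Q * Q', by rw [eval₂_mul]; exact mul_ne_zero hQ hQ', ?_⟩
      rw [eval₂_mul, eval₂_mul]
      field_simp

end GoodField

end Fermat.Agent.S18.H21
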