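/-
S18 / wave 4 (helper21): step G2 of the core-2 descent (`exists_descent`, report #1509) in the
packaging of `H19/Core2.lean`: `K₀ : IntermediateField ℚ ℚ̄` a number field,
`F₀ : IntermediateField K₀ F` with `F₀ = ⊕ K₀(x) θᵢ`, and the bridge between
`ratClosure K₀ x` (a subfield of `F`) and `ratSub (A ∩ K₀) x` (a subfield of `F₀`).
-/
import Fermat.Agent.S18.H21.GoodField
import Fermat.Agent.S18.H21.ComapDVR
import Fermat.Agent.S18.H19.Core2Defs

set_option autoImplicit false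

noncomputable section

namespace Fermat.Agent.S18.H21

open IntermediateField Polynomial Fermat.Agent.S18.H19

local notation "Qb" => AlgebraicClosure ℚ

section DescField

variable {F : Type*} [Field F] [Algebra Qb F]

/-- **G2** (existence of the descended field).  `θ` spanning `F` over `ℚ̄(x)`, `T ⊆ F` and
`Z' ⊆ ℚ̄` finite: there are a number field `K₀ ⊇ Z'` and a subfield `F₀ ⊇ K₀` of `F` containing
`x`, `θ`, `T`, which is exactly the `K₀(x)`-span of the `θᵢ`. -/
theorem exists_descent_field (x : F) {μ : ℕ} (θ : Fin μ → F)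
    (hspan : ⊤ ≤ Submodule.span Qb⟮x⟯ (Set.range θ)) (T : Finset F) (Z' : Finset Qb) :
    ∃ K₀ : IntermediateField ℚ Qb, FiniteDimensional ℚ K₀ ∧ (∀ z ∈ Z', z ∈ K₀) ∧
      ∃ F₀ : IntermediateField K₀ F, x ∈ F₀ ∧ (∀ i, θ i ∈ F₀) ∧ (∀ t ∈ T, t ∈ F₀) ∧
        ∀ f : F, f ∈ F₀ ↔
          ∃ r : Fin μ → F, (∀ i, r i ∈ ratClosure K₀.toSubfield x) ∧ f = ∑ i, r i * θ i := by
  classical
  obtain ⟨Z, hZ⟩ := exists_finset_good x θ hspan T
  let K₀ : IntermediateField ℚ Qb := IntermediateField.adjoin ℚ ((Z ∪ Z' : Finset Qb) : Set Qb)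
  have hfd : FiniteDimensional ℚ K₀ := finiteDimensional_adjoin_finset (Z ∪ Z')
  have hZK : (Z : Set Qb) ⊆ K₀.toSubfield := fun z hz =>
    IntermediateField.subset_adjoin ℚ _ (by
      rw [Finset.coe_union]; exact Or.inl hz)
  have hZ'K : ∀ z ∈ Z', z ∈ K₀ := fun z hz =>
    IntermediateField.subset_adjoin ℚ _ (by
      rw [Finset.coe_union]; exact Or.inr (Finset.mem_coe.mpr hz))
  obtain ⟨F₀', hE₀, hθ, hT, hmem⟩ := hZ K₀.toSubfield hZK
  refine ⟨K₀, hfd, hZ'K, Subfield.toIntermediateField F₀' (fun a => ?_), ?_, hθ, hT, hmem⟩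
  · exact hE₀ (algebraMap_mem_ratClosure K₀.toSubfield x a.2)
  · exact hE₀ (self_mem_ratClosure K₀.toSubfield x)

end DescField

section Bridge

variable {F : Type*} [Field F] [Algebra Qb F]

/-- **Bridge** between the two descriptions of `K₀(x)`: `ratSub (A ∩ K₀) x` inside `F₀`
(`H19/Core2Defs`) and `ratClosure K₀ x` inside `F`. -/
theorem mem_ratSub_iff_coe_mem_ratClosure (A : ValuationSubring Qb) (K₀ : IntermediateField ℚ Qb)
    (F₀ : IntermediateField K₀ F) (x : F) (hx₀ : x ∈ F₀) (y : F₀) :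
    letI := algComap (A.comap (algebraMap K₀ Qb)) F₀
    y ∈ ratSub ↥(A.comap (algebraMap K₀ Qb)) (⟨x, hx₀⟩ : F₀) ↔
      (y : F) ∈ ratClosure K₀.toSubfield x := by
  let _ := algComap (A.comap (algebraMap K₀ Qb)) F₀
  constructor
  · intro hy
    unfold ratSub at hy
    induction hy using Subfield.closure_induction with
    | mem z hz =>
        rcases hz with ⟨a, rfl⟩ | hz
        · exact algebraMap_mem_ratClosure K₀.toSubfield x (a : K₀).2
        · rw [Set.mem_singleton_iff] at hz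
          rw [hz]
          exact self_mem_ratClosure K₀.toSubfield x
    | one => exact one_mem _
    | add z w _ _ hz hw => exact add_mem hz hw
    | neg z _ hz => exact neg_mem hz
    | inv z _ hz => exact inv_mem hz
    | mul z w _ _ hz hw => exact mul_mem hz hw
  · intro hy
    have key : ∀ z : F, z ∈ ratClosure K₀.toSubfield x →
        ∃ h : z ∈ F₀, (⟨z, h⟩ : F₀) ∈ ratSub ↥(A.comap (algebraMap K₀ Qb)) (⟨x, hx₀⟩ : F₀) := by
      intro z hz
      unfold ratClosure at hz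
      induction hz using Subfield.closure_induction with
      | mem w hw =>
          rcases hw with ⟨a, ha, rfl⟩ | hw
          · have hmem : algebraMap Qb F a ∈ F₀ := F₀.algebraMap_mem (⟨a, ha⟩ : K₀)
            refine ⟨hmem, ?_⟩
            rcases (A.comap (algebraMap K₀ Qb)).mem_or_inv_mem (⟨a, ha⟩ : K₀) with h | h
            · exact Subfield.subset_closure (Or.inl ⟨⟨⟨a, ha⟩, h⟩, rfl⟩)
            · have h1 : algebraMap ↥(A.comap (algebraMap K₀ Qb)) F₀ ⟨(⟨a, ha⟩ : K₀)⁻¹, h⟩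
                  ∈ ratSub ↥(A.comap (algebraMap K₀ Qb)) (⟨x, hx₀⟩ : F₀) :=
                Subfield.subset_closure (Or.inl ⟨_, rfl⟩)
              have h2 := inv_mem h1
              have h3 : (algebraMap ↥(A.comap (algebraMap K₀ Qb)) F₀ ⟨(⟨a, ha⟩ : K₀)⁻¹, h⟩)⁻¹
                  = (⟨algebraMap Qb F a, hmem⟩ : F₀) := by
                apply Subtype.ext
                show (algebraMap Qb F (a⁻¹))⁻¹ = algebraMap Qb F a
                rw [map_inv₀, inv_inv]
              rw [h3] at h2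
              exact h2
          · rw [Set.mem_singleton_iff] at hw
            subst hw
            exact ⟨hx₀, Subfield.subset_closure (Or.inr rfl)⟩
      | one => exact ⟨one_mem _, one_mem _⟩
      | add z w _ _ hz hw =>
          obtain ⟨h1, h2⟩ := hz
          obtain ⟨h3, h4⟩ := hw
          exact ⟨add_mem h1 h3, add_mem h2 h4⟩
      | neg z _ hz =>
          obtain ⟨h1, h2⟩ := hz
          exact ⟨neg_mem h1, neg_mem h2⟩
      | inv z _ hz =>
          obtain ⟨h1, h2⟩ := hz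
          exact ⟨inv_mem h1, inv_mem h2⟩
      | mul z w _ _ hz hw =>
          obtain ⟨h1, h2⟩ := hz
          obtain ⟨h3, h4⟩ := hw
          exact ⟨mul_mem h1 h3, mul_mem h2 h4⟩
    obtain ⟨_, h⟩ := key (y : F) hy
    exact h

/-- `K₀(x) ⊆ F₀` for an intermediate field `F₀ ∋ x` of `F/K₀`. -/
theorem ratClosure_le_of_mem (K₀ : IntermediateField ℚ Qb) (F₀ : IntermediateField K₀ F) (x : F)
    (hx₀ : x ∈ F₀) : ratClosure K₀.toSubfield x ≤ F₀.toSubfield := by
  unfold ratClosure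
  rw [Subfield.closure_le]
  rintro y (⟨a, ha, rfl⟩ | hy)
  · exact F₀.algebraMap_mem (⟨a, ha⟩ : K₀)
  · rw [Set.mem_singleton_iff] at hy
    rw [hy]; exact hx₀

/-- **Coordinates in `ratSub`**: if `F₀` is the `K₀(x)`-span of the `θᵢ` (as given by
`exists_descent_field`), every element of `F₀` is a `ratSub (A ∩ K₀) x`-combination of the
`θᵢ` inside `F₀`. -/
theorem exists_ratSub_coord (A : ValuationSubring Qb) (K₀ : IntermediateField ℚ Qb)
    (F₀ : IntermediateField K₀ F) (x : F) (hx₀ : x ∈ F₀) {μ : ℕ} (θ : Fin μ → F)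
    (hθ : ∀ i, θ i ∈ F₀)
    (hmem : ∀ f : F, f ∈ F₀ →
      ∃ r : Fin μ → F, (∀ i, r i ∈ ratClosure K₀.toSubfield x) ∧ f = ∑ i, r i * θ i)
    (f : F₀) :
    letI := algComap (A.comap (algebraMap K₀ Qb)) F₀
    ∃ r : Fin μ → ratSub ↥(A.comap (algebraMap K₀ Qb)) (⟨x, hx₀⟩ : F₀),
      f = ∑ i, ((r i : F₀)) * (⟨θ i, hθ i⟩ : F₀) := by
  let _ := algComap (A.comap (algebraMap K₀ Qb)) F₀
  obtain ⟨r, hr, hfr⟩ := hmem (f : F) f.2
  have hrF₀ : ∀ i, r i ∈ F₀ := fun i => ratClosure_le_of_mem K₀ F₀ x hx₀ (hr i)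
  refine ⟨fun i => ⟨⟨r i, hrF₀ i⟩,
    (mem_ratSub_iff_coe_mem_ratClosure A K₀ F₀ x hx₀ ⟨r i, hrF₀ i⟩).mpr (hr i)⟩, ?_⟩
  apply Subtype.ext
  rw [hfr]
  have : ((∑ i, (⟨r i, hrF₀ i⟩ : F₀) * (⟨θ i, hθ i⟩ : F₀) : F₀) : F) = ∑ i, r i * θ i := by
    rw [← IntermediateField.coe_val, map_sum]
    rfl
  rw [this]

end Bridge

end Fermat.Agent.S18.H21
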