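/-
S18 / wave 4 (helper21): NUMBER-FIELD DESCENT, part 2 (the valuation ring `A ∩ K₀`).

For a valuation subring `A` of a field `L` (e.g. `L = ℚ̄`, `A` over a prime `ℓ`) and a number field
`K₀` with a ring homomorphism `φ : K₀ →+* L`:

* `descend A φ = A.comap φ` ("`A ∩ K₀`"), with `mem_descend`, `mem_nonunits_descend`;
* `isDiscreteValuationRing_descend`, `finite_residueField_descend` (for `A` over `ℓ`);
* `residue_descend_eq_zero_iff` : the residue field of `A ∩ K₀` embeds into that of `A`;
* `exists_finiteDimensional_le` : finitely many elements of `ℚ̄` lie in a number field.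
-/
import Fermat.Agent.S18.H21.NFDescent
import Fermat.Prelude.Def_FLTPrelim_Ramification

set_option autoImplicit false

noncomputable section

namespace Fermat.Agent.S18.H21

open IsLocalRing

section Comap

variable {L : Type*} [Field L] (A : ValuationSubring L) {K₀ : Type*} [Field K₀] (φ : K₀ →+* L)

/-- "`A ∩ K₀`": the valuation subring of `K₀` induced by `A` along `φ : K₀ →+* L`. -/
def descend : ValuationSubring K₀ := A.comap φ

theorem mem_descend (x : K₀) : x ∈ descend A φ ↔ φ x ∈ A := Iff.rfl

theorem mem_nonunits_iff_inv_not_mem {L : Type*} [Field L] (A : ValuationSubring L) (a : L)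
    (ha : a ≠ 0) : a ∈ A.nonunits ↔ a⁻¹ ∉ A := by
  rw [ValuationSubring.mem_nonunits_iff, ← A.valuation_le_one_iff, map_inv₀, not_le]
  have h0 : 0 < A.valuation a := by
    rw [zero_lt_iff]; exact (Valuation.ne_zero_iff _).mpr ha
  constructor
  · intro h
    exact (one_lt_inv₀ h0).mpr h
  · intro h
    exact (one_lt_inv₀ h0).mp h

theorem mem_nonunits_descend (x : K₀) : x ∈ (descend A φ).nonunits ↔ φ x ∈ A.nonunits := by
  by_cases hx : x = 0
  · subst hx
    rw [map_zero]
    exact ⟨fun _ => by rw [ValuationSubring.mem_nonunits_iff, map_zero]; exact zero_lt_one,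
      fun _ => by rw [ValuationSubring.mem_nonunits_iff, map_zero]; exact zero_lt_one⟩
  · rw [mem_nonunits_iff_inv_not_mem _ x hx,
      mem_nonunits_iff_inv_not_mem _ (φ x) ((map_ne_zero φ).mpr hx),
      mem_descend, map_inv₀]

theorem descend_ne_top [CharZero L] {ℓ : ℕ} (hA : A.LiesOverPrime ℓ) (hℓ : ℓ ≠ 0) :
    descend A φ ≠ ⊤ := by
  intro h
  have h1 : ((ℓ : K₀))⁻¹ ∈ descend A φ := by rw [h]; trivial
  rw [mem_descend, map_inv₀, map_natCast] at h1
  have hℓ0 : (ℓ : L) ≠ 0 := Nat.cast_ne_zero.mpr hℓ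
  exact (mem_nonunits_iff_inv_not_mem A _ hℓ0).mp hA h1

/-- **(N2)** `A ∩ K₀` is a discrete valuation ring for a number field `K₀`. -/
theorem isDiscreteValuationRing_descend [CharZero L] [NumberField K₀] {ℓ : ℕ}
    (hA : A.LiesOverPrime ℓ) (hℓ : ℓ ≠ 0) : IsDiscreteValuationRing (descend A φ) :=
  isDiscreteValuationRing_of_numberField _ (descend_ne_top A φ hA hℓ)

/-- **(N2)** the residue field of `A ∩ K₀` is finite for a number field `K₀`. -/
theorem finite_residueField_descend [CharZero L] [NumberField K₀] {ℓ : ℕ}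
    (hA : A.LiesOverPrime ℓ) (hℓ : ℓ ≠ 0) : Finite (IsLocalRing.ResidueField (descend A φ)) :=
  finite_residueField_of_numberField _ (descend_ne_top A φ hA hℓ)

/-- The inclusion `A ∩ K₀ → A`. -/
def descendHom : descend A φ →+* A where
  toFun x := ⟨φ x.1, x.2⟩
  map_one' := Subtype.ext (map_one φ)
  map_mul' x y := Subtype.ext (map_mul φ x.1 y.1)
  map_zero' := Subtype.ext (map_zero φ)
  map_add' x y := Subtype.ext (map_add φ x.1 y.1)

@[simp] theorem coe_descendHom (x : descend A φ) : ((descendHom A φ x : A) : L) = φ x.1 := rfl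

/-- The residue field of `A ∩ K₀` embeds into the residue field of `A`: an element of `A ∩ K₀`
reduces to `0` iff it does so in `A`. -/
theorem residue_descendHom_eq_zero_iff (x : descend A φ) :
    IsLocalRing.residue A (descendHom A φ x) = 0 ↔ IsLocalRing.residue (descend A φ) x = 0 := by
  rw [IsLocalRing.residue_eq_zero_iff, IsLocalRing.residue_eq_zero_iff]
  constructor
  · intro h
    have h1 : φ x.1 ∈ A.nonunits :=
      (ValuationSubring.mem_nonunits_iff_exists_mem_maximalIdeal).mpr ⟨x.2, h⟩
    obtain ⟨_, h2⟩ := (ValuationSubring.mem_nonunits_iff_exists_mem_maximalIdeal).mp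
      ((mem_nonunits_descend A φ x.1).mpr h1)
    exact h2
  · intro h
    have h1 : x.1 ∈ (descend A φ).nonunits :=
      (ValuationSubring.mem_nonunits_iff_exists_mem_maximalIdeal).mpr ⟨x.2, h⟩
    obtain ⟨_, h2⟩ := (ValuationSubring.mem_nonunits_iff_exists_mem_maximalIdeal).mp
      ((mem_nonunits_descend A φ x.1).mp h1)
    exact h2

instance isLocalHom_descendHom : IsLocalHom (descendHom A φ) where
  map_nonunit x hx := by
    by_contra h
    have h1 : IsLocalRing.residue (descend A φ) x = 0 :=
      (IsLocalRing.residue_eq_zero_iff _).mpr ((IsLocalRing.mem_maximalIdeal x).mpr h)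
    have h2 := (residue_descendHom_eq_zero_iff A φ x).mpr h1
    rw [IsLocalRing.residue_eq_zero_iff, IsLocalRing.mem_maximalIdeal] at h2
    exact h2 hx

/-- The residue characteristic of `A ∩ K₀`. -/
theorem natCast_mem_nonunits_descend {ℓ : ℕ} (hA : A.LiesOverPrime ℓ) :
    (ℓ : K₀) ∈ (descend A φ).nonunits := by
  rw [mem_nonunits_descend, map_natCast]
  exact hA

end Comap

end Fermat.Agent.S18.H21
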