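/-
S18 / wave 4 (helper21): leaf B1 — the hypothesis `hF` of `gaussRing` for base-changed fields.

`K` a field of characteristic zero, `A` a valuation subring over a prime `ℓ` (so that `A ∩ ℚ` is a
discrete valuation ring).  If `F₀ = ℚ(S₀)` with every series of `S₀ ⊆ ℚ((q))` having coefficients
in `A ∩ ℚ` (e.g. integers), then every nonzero element of `laurentBaseChange K F₀` is a constant
times a Gauss unit (`exists_isGaussUnit_of_mem_laurentBaseChange`).
-/
import Fermat.Agent.S18.H21.GaussRing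
import Fermat.Agent.S18.H21.NFDescentQbar

set_option autoImplicit false

noncomputable section

namespace Fermat.Agent.S18.H21

open ModularCurve IntermediateField

section Field

variable {K : Type*} [Field K] [CharZero K] (A : ValuationSubring K)

/-- the series over `ℚ` with coefficients in `A ∩ ℚ`. -/
def intSeries : Subring (LaurentSeries ℚ) :=
  (coeffMap (descend A (algebraMap ℚ K)).subtype).range

theorem mem_intSeries_iff (m : LaurentSeries ℚ) :
    m ∈ intSeries A ↔ ∀ n, algebraMap ℚ K (m.coeff n) ∈ A := by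
  constructor
  · rintro ⟨Y, rfl⟩ n
    exact (Y.coeff n).2
  · intro h
    exact exists_laurent_of_coeff_mem (descend A (algebraMap ℚ K)) m h

/-- the `K`-algebra generated by the integral rational series. -/
def intAlg : Subalgebra K (LaurentSeries K) :=
  Algebra.adjoin K (⇑(coeffEmb K) '' (intSeries A : Set (LaurentSeries ℚ)))

theorem coeffEmb_mem_intAlg {m : LaurentSeries ℚ} (hm : m ∈ intSeries A) :
    coeffEmb K m ∈ intAlg A :=
  Algebra.subset_adjoin ⟨m, hm, rfl⟩

/-- elements of `intAlg` are finite `K`-combinations of integral rational series. -/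
theorem exists_sum_of_mem_intAlg {p : LaurentSeries K} (hp : p ∈ intAlg A) :
    ∃ (r : ℕ) (a : Fin r → K) (m : Fin r → LaurentSeries ℚ),
      (∀ t, m t ∈ intSeries A) ∧
        p = ∑ t, algebraMap K (LaurentSeries K) (a t) * coeffEmb K (m t) := by
  have hcl : (Submonoid.closure (⇑(coeffEmb K) '' (intSeries A : Set (LaurentSeries ℚ))) :
      Set (LaurentSeries K)) ⊆ ⇑(coeffEmb K) '' (intSeries A : Set (LaurentSeries ℚ)) := by
    have : Submonoid.closure (⇑(coeffEmb K) '' (intSeries A : Set (LaurentSeries ℚ)))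
        ≤ (intSeries A).toSubmonoid.map (coeffEmb K : LaurentSeries ℚ →* LaurentSeries K) := by
      rw [Submonoid.closure_le]
      rintro _ ⟨m, hm, rfl⟩
      exact ⟨m, hm, rfl⟩
    intro x hx
    obtain ⟨m, hm, rfl⟩ := this hx
    exact ⟨m, hm, rfl⟩
  have hp' : p ∈ Subalgebra.toSubmodule
      (Algebra.adjoin K (⇑(coeffEmb K) '' (intSeries A : Set (LaurentSeries ℚ)))) := hp
  rw [Algebra.adjoin_eq_span] at hp'
  obtain ⟨r, a, g, hsum⟩ :=
    (@Submodule.mem_span_set' K (LaurentSeries K) _ _ Algebra.toModule p _).mp hp'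
  have hg : ∀ t, ∃ m : LaurentSeries ℚ, m ∈ intSeries A ∧ coeffEmb K m = (g t : LaurentSeries K) :=
    fun t => hcl (g t).2
  choose m hm hmg using hg
  refine ⟨r, a, m, hm, ?_⟩
  rw [← hsum]
  refine Finset.sum_congr rfl fun t _ => ?_
  rw [Algebra.smul_def, hmg t]

variable {ℓ : ℕ}

/-- **PRIM for `intAlg`**: a nonzero element is a constant times a primitive integral series. -/
theorem exists_prim_of_mem_intAlg (hA : A.LiesOverPrime ℓ) (hℓ : ℓ ≠ 0)
    {p : LaurentSeries K} (hp : p ∈ intAlg A) (hp0 : p ≠ 0) :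
    ∃ c : K, c ≠ 0 ∧ ∃ Y : LaurentSeries A,
      coeffMap A.subtype Y = algebraMap K (LaurentSeries K) c * p ∧
      coeffMap (IsLocalRing.residue A) Y ≠ 0 := by
  have : IsDiscreteValuationRing (descend A (algebraMap ℚ K)) :=
    isDiscreteValuationRing_descend A (algebraMap ℚ K) hA hℓ
  obtain ⟨r, a, m, hm, rfl⟩ := exists_sum_of_mem_intAlg A hp
  have h1 : ∀ x : descend A (algebraMap ℚ K),
      (algebraMap ℚ K) (algebraMap (descend A (algebraMap ℚ K)) ℚ x) ∈ A := fun x => x.2
  have h2 : ∀ x ∈ IsLocalRing.maximalIdeal (descend A (algebraMap ℚ K)),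
      A.valuation ((algebraMap ℚ K) (algebraMap (descend A (algebraMap ℚ K)) ℚ x)) < 1 := by
    intro x hx
    have hx' : (x : ℚ) ∈ (descend A (algebraMap ℚ K)).nonunits :=
      (ValuationSubring.mem_nonunits_iff_exists_mem_maximalIdeal).mpr ⟨x.2, hx⟩
    exact (ValuationSubring.mem_nonunits_iff A).mp
      ((mem_nonunits_descend A (algebraMap ℚ K) x).mp hx')
  have hg : ∀ t, ∃ a₀ : descend A (algebraMap ℚ K), a₀ ≠ 0 ∧
      IsIntVec (descend A (algebraMap ℚ K)) (a₀ • fun n : ℤ => (m t).coeff n) := by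
    intro t
    refine ⟨1, one_ne_zero, ?_⟩
    rw [one_smul]
    intro n
    exact ⟨⟨(m t).coeff n, (mem_intSeries_iff A (m t)).mp (hm t) n⟩, rfl⟩
  have hsum : (∑ t, algebraMap K (LaurentSeries K) (a t) * coeffEmb K (m t))
      = ∑ t, a t • coeffMap (algebraMap ℚ K) (m t) :=
    Finset.sum_congr rfl fun t _ => algebraMap_mul_eq_smul _ _
  rw [hsum] at hp0 ⊢
  obtain ⟨c, hc0, Y, hY, hYred⟩ := exists_scale_prim_laurent A (algebraMap ℚ K) h1 h2 m hg a hp0
  refine ⟨c, hc0, Y, ?_, hYred⟩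
  rw [hY, algebraMap_mul_eq_smul]

/-- `coeffEmb` maps the `ℚ`-algebra generated by integral series into `intAlg`. -/
theorem coeffEmb_mem_intAlg_of_mem_adjoin {S₀ : Set (LaurentSeries ℚ)}
    (hS₀ : S₀ ⊆ (intSeries A : Set (LaurentSeries ℚ))) {z : LaurentSeries ℚ}
    (hz : z ∈ Algebra.adjoin ℚ S₀) : coeffEmb K z ∈ intAlg A := by
  induction hz using Algebra.adjoin_induction with
  | mem x hx => exact coeffEmb_mem_intAlg A (hS₀ hx)
  | algebraMap r =>
      have : coeffEmb K (algebraMap ℚ (LaurentSeries ℚ) r)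
          = algebraMap K (LaurentSeries K) (algebraMap ℚ K r) := by
        rw [algebraMap_laurentSeries_eq_single, algebraMap_laurentSeries_eq_single, coeffEmb,
          coeffMap_single]
      rw [this]
      exact Subalgebra.algebraMap_mem _ _
  | add x y _ _ hx hy => rw [map_add]; exact add_mem hx hy
  | mul x y _ _ hx hy => rw [map_mul]; exact mul_mem hx hy

/-- every element of the base-changed field is a quotient of two elements of `intAlg`. -/
theorem exists_div_of_mem_laurentBaseChange {S₀ : Set (LaurentSeries ℚ)}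
    (hS₀ : S₀ ⊆ (intSeries A : Set (LaurentSeries ℚ))) {f : LaurentSeries K}
    (hf : f ∈ laurentBaseChange K (IntermediateField.adjoin ℚ S₀)) :
    ∃ p ∈ intAlg A, ∃ q ∈ intAlg A, q ≠ 0 ∧ f * q = p := by
  rw [mem_laurentBaseChange_iff] at hf
  induction hf using Subfield.closure_induction with
  | mem y hy =>
      rcases hy with ⟨a, rfl⟩ | ⟨z, hz, rfl⟩
      · exact ⟨_, Subalgebra.algebraMap_mem _ a, 1, one_mem _, one_ne_zero, mul_one _⟩
      · obtain ⟨r₀, hr₀, s₀, hs₀, rfl⟩ := IntermediateField.mem_adjoin_iff_div.mp hz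
        by_cases hs : s₀ = 0
        · refine ⟨0, zero_mem _, 1, one_mem _, one_ne_zero, ?_⟩
          rw [hs, div_zero, map_zero, zero_mul]
        · refine ⟨coeffEmb K r₀, coeffEmb_mem_intAlg_of_mem_adjoin A hS₀ hr₀,
            coeffEmb K s₀, coeffEmb_mem_intAlg_of_mem_adjoin A hS₀ hs₀,
            (map_ne_zero (coeffEmb K)).mpr hs, ?_⟩
          rw [← map_mul, div_mul_cancel₀ _ hs]
  | one => exact ⟨1, one_mem _, 1, one_mem _, one_ne_zero, mul_one _⟩
  | add x y _ _ hx hy =>
      obtain ⟨p, hp, q, hq, hq0, hxq⟩ := hx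
      obtain ⟨p', hp', q', hq', hq0', hyq⟩ := hy
      refine ⟨p * q' + p' * q, add_mem (mul_mem hp hq') (mul_mem hp' hq), q * q',
        mul_mem hq hq', mul_ne_zero hq0 hq0', ?_⟩
      rw [← hxq, ← hyq]; ring
  | neg x _ hx =>
      obtain ⟨p, hp, q, hq, hq0, hxq⟩ := hx
      exact ⟨-p, neg_mem hp, q, hq, hq0, by rw [← hxq, neg_mul]⟩
  | inv x _ hx =>
      obtain ⟨p, hp, q, hq, hq0, hxq⟩ := hx
      by_cases hx0 : x = 0
      · exact ⟨0, zero_mem _, 1, one_mem _, one_ne_zero, by rw [hx0, inv_zero, zero_mul]⟩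
      · have hp0 : p ≠ 0 := by rw [← hxq]; exact mul_ne_zero hx0 hq0
        refine ⟨q, hq, p, hp, hp0, ?_⟩
        rw [← hxq, ← mul_assoc, inv_mul_cancel₀ hx0, one_mul]
  | mul x y _ _ hx hy =>
      obtain ⟨p, hp, q, hq, hq0, hxq⟩ := hx
      obtain ⟨p', hp', q', hq', hq0', hyq⟩ := hy
      refine ⟨p * p', mul_mem hp hp', q * q', mul_mem hq hq', mul_ne_zero hq0 hq0', ?_⟩
      rw [← hxq, ← hyq]; ring

/-- **The hypothesis `hF` of `gaussRing`** for a base-changed field `K · ℚ(S₀)`, `S₀` a set of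
rational series with coefficients in `A ∩ ℚ`, `A` over a prime `ℓ`: every nonzero element is a
constant times a Gauss unit. -/
theorem exists_isGaussUnit_of_mem_laurentBaseChange (hA : A.LiesOverPrime ℓ) (hℓ : ℓ ≠ 0)
    {S₀ : Set (LaurentSeries ℚ)} (hS₀ : S₀ ⊆ (intSeries A : Set (LaurentSeries ℚ)))
    {f : LaurentSeries K} (hf : f ∈ laurentBaseChange K (IntermediateField.adjoin ℚ S₀))
    (hf0 : f ≠ 0) : ∃ c : K, c ≠ 0 ∧ IsGaussUnit A (c • f) := by
  obtain ⟨p, hp, q, hq, hq0, hfq⟩ := exists_div_of_mem_laurentBaseChange A hS₀ hf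
  have hp0 : p ≠ 0 := by rw [← hfq]; exact mul_ne_zero hf0 hq0
  obtain ⟨c₁, hc₁, Y₁, hY₁, hY₁red⟩ := exists_prim_of_mem_intAlg A hA hℓ hp hp0
  obtain ⟨c₂, hc₂, Y₂, hY₂, hY₂red⟩ := exists_prim_of_mem_intAlg A hA hℓ hq hq0
  refine ⟨c₁ / c₂, div_ne_zero hc₁ hc₂, Y₁, Y₂, hY₁red, hY₂red, ?_⟩
  rw [hY₁, hY₂, ← hfq, ← algebraMap_mul_eq_smul, div_eq_mul_inv, map_mul]
  have h3 : algebraMap K (LaurentSeries K) c₂⁻¹ * algebraMap K (LaurentSeries K) c₂ = 1 := by
    rw [← map_mul, inv_mul_cancel₀ hc₂, map_one]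
  calc algebraMap K (LaurentSeries K) c₁ * algebraMap K (LaurentSeries K) c₂⁻¹ * f *
        (algebraMap K (LaurentSeries K) c₂ * q)
      = algebraMap K (LaurentSeries K) c₁ *
          (algebraMap K (LaurentSeries K) c₂⁻¹ * algebraMap K (LaurentSeries K) c₂) *
          (f * q) := by ring
    _ = algebraMap K (LaurentSeries K) c₁ * (f * q) := by rw [h3, mul_one]

end Field

end Fermat.Agent.S18.H21
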