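import Mathlib

/-!
# Lattices of integral vectors in finite-dimensional spaces of functions (helper21)

`A₀` a principal ideal domain with fraction field `K₀`, `V` a finite-dimensional `K₀`-subspace of
`I → K₀` all of whose elements have bounded denominators.  Then the integral vectors of `V` form
a free `A₀`-module with a basis that is also a `K₀`-basis of `V` ("orthonormal basis").
-/

namespace Fermat.Agent.S18.H21

open Module

section Coordinates

variable {K₀ : Type*} [Field K₀] {I : Type*}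

/-- finitely many coordinates suffice to separate the points of a finite-dimensional space of
functions. -/
theorem exists_finset_coord_injective (V : Submodule K₀ (I → K₀)) [FiniteDimensional K₀ V] :
    ∃ T : Finset I, ∀ v ∈ V, (∀ i ∈ T, v i = 0) → v = 0 := by
  classical
  rcases isEmpty_or_nonempty I with hI | hI
  · exact ⟨∅, fun v _ _ => funext fun i => (hI.false i).elim⟩
  let E : I → Module.Dual K₀ V := fun i => (LinearMap.proj i).comp V.subtype
  have hW : Submodule.span K₀ (Set.range E) = ⊤ := by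
    have h1 : (Submodule.span K₀ (Set.range E)).dualCoannihilator = ⊥ := by
      rw [eq_bot_iff]
      intro v hv
      rw [Submodule.mem_dualCoannihilator] at hv
      rw [Submodule.mem_bot]
      apply Subtype.ext
      funext i
      exact hv (E i) (Submodule.subset_span ⟨i, rfl⟩)
    have h2 := Subspace.dualCoannihilator_dualAnnihilator_eq
      (W := Submodule.span K₀ (Set.range E))
    rw [h1, Submodule.dualAnnihilator_bot] at h2
    exact h2.symm
  have hfg : (Submodule.span K₀ (Set.range E)).FG := by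
    rw [hW]; exact Module.finite_def.mp inferInstance
  obtain ⟨s', hs', hspan⟩ := (Submodule.fg_span_iff_fg_span_finset_subset _).mp hfg
  choose! idx hidx using fun φ (hφ : φ ∈ s') => hs' hφ
  refine ⟨s'.image idx, fun v hv h0 => ?_⟩
  have hv0 : (⟨v, hv⟩ : V) = 0 := by
    have : ∀ φ ∈ Submodule.span K₀ (s' : Set (Module.Dual K₀ V)), φ ⟨v, hv⟩ = 0 := by
      intro φ hφ
      induction hφ using Submodule.span_induction with
      | mem x hx =>
        have := h0 (idx x) (Finset.mem_image_of_mem idx hx)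
        rw [← hidx x hx]
        exact this
      | zero => rfl
      | add x y _ _ hx hy => rw [LinearMap.add_apply, hx, hy, add_zero]
      | smul a x _ hx => rw [LinearMap.smul_apply, hx, smul_zero]
    rw [← hspan, hW] at this
    exact (Module.forall_dual_apply_eq_zero_iff K₀ _).mp fun φ => this φ Submodule.mem_top
  exact congrArg Subtype.val hv0

end Coordinates

section Lat1

variable {A₀ K₀ : Type*} [CommRing A₀] [IsDomain A₀] [IsPrincipalIdealRing A₀]
  [Field K₀] [Algebra A₀ K₀] [IsFractionRing A₀ K₀] {I : Type*}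

/-- `v` has all its coordinates in (the image of) `A₀`. -/
def IsIntVec (A₀ : Type*) {K₀ : Type*} [CommRing A₀] [Field K₀] [Algebra A₀ K₀] {I : Type*}
    (v : I → K₀) : Prop :=
  ∀ i, ∃ x : A₀, algebraMap A₀ K₀ x = v i

omit [IsDomain A₀] [IsPrincipalIdealRing A₀] [IsFractionRing A₀ K₀] in
theorem IsIntVec.add {v w : I → K₀} (hv : IsIntVec A₀ v) (hw : IsIntVec A₀ w) :
    IsIntVec A₀ (v + w) := fun i => by
  obtain ⟨x, hx⟩ := hv i
  obtain ⟨y, hy⟩ := hw i
  exact ⟨x + y, by rw [map_add, hx, hy, Pi.add_apply]⟩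

omit [IsDomain A₀] [IsPrincipalIdealRing A₀] [IsFractionRing A₀ K₀] in
theorem IsIntVec.smul {v : I → K₀} (a : A₀) (hv : IsIntVec A₀ v) :
    IsIntVec A₀ (a • v) := fun i => by
  obtain ⟨x, hx⟩ := hv i
  exact ⟨a * x, by rw [map_mul, hx, Pi.smul_apply, Algebra.smul_def]⟩

omit [IsDomain A₀] [IsPrincipalIdealRing A₀] [IsFractionRing A₀ K₀] in
theorem isIntVec_zero : IsIntVec A₀ (0 : I → K₀) := fun _ => ⟨0, by simp⟩

/-- the `A₀`-module of integral vectors of `V`. -/
def intSub (A₀ : Type*) {K₀ : Type*} [CommRing A₀] [Field K₀] [Algebra A₀ K₀] {I : Type*}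
    (V : Submodule K₀ (I → K₀)) : Submodule A₀ (I → K₀) where
  carrier := {v | v ∈ V ∧ IsIntVec A₀ v}
  add_mem' := fun hv hw => ⟨V.add_mem hv.1 hw.1, IsIntVec.add hv.2 hw.2⟩
  zero_mem' := ⟨V.zero_mem, isIntVec_zero⟩
  smul_mem' := fun a _ hv => ⟨V.smul_of_tower_mem a hv.1, IsIntVec.smul a hv.2⟩

omit [IsDomain A₀] [IsPrincipalIdealRing A₀] [IsFractionRing A₀ K₀] in
theorem mem_intSub {V : Submodule K₀ (I → K₀)} {v : I → K₀} :
    v ∈ intSub A₀ V ↔ v ∈ V ∧ IsIntVec A₀ v := Iff.rfl

omit [IsPrincipalIdealRing A₀] in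
theorem intSub_isTorsionFree (V : Submodule K₀ (I → K₀)) :
    Module.IsTorsionFree A₀ (intSub A₀ V) := by
  refine Module.IsTorsionFree.of_smul_eq_zero (R := A₀) (M := intSub A₀ V) fun a m h => ?_
  by_cases ha : a = 0
  · exact Or.inl ha
  right
  have h2 : algebraMap A₀ K₀ a • (m : I → K₀) = 0 := by
    have := congrArg Subtype.val h
    simpa [algebraMap_smul] using this
  have h3 : algebraMap A₀ K₀ a ≠ 0 := by
    simpa using (IsFractionRing.injective A₀ K₀).ne ha
  exact Subtype.ext ((smul_eq_zero.mp h2).resolve_left h3)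

theorem intSub_finite (V : Submodule K₀ (I → K₀)) [FiniteDimensional K₀ V] :
    Module.Finite A₀ (intSub A₀ V) := by
  classical
  obtain ⟨T, hT⟩ := exists_finset_coord_injective V
  have hinj : Function.Injective (algebraMap A₀ K₀) := IsFractionRing.injective A₀ K₀
  -- the coordinate map into `T → A₀`
  let g : intSub A₀ V → (T → A₀) := fun v t => Classical.choose (v.2.2 t.1)
  have hg : ∀ (v : intSub A₀ V) (t : T), algebraMap A₀ K₀ (g v t) = (v : I → K₀) t.1 :=
    fun v t => Classical.choose_spec (v.2.2 t.1)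
  let G : intSub A₀ V →ₗ[A₀] (T → A₀) :=
    { toFun := g
      map_add' := fun v w => by
        funext t
        apply hinj
        rw [Pi.add_apply, map_add, hg, hg, hg]
        rfl
      map_smul' := fun a v => by
        funext t
        apply hinj
        rw [Pi.smul_apply, smul_eq_mul, map_mul, hg, hg, RingHom.id_apply]
        show (a • (v : I → K₀)) t.1 = _
        rw [Pi.smul_apply, Algebra.smul_def] }
  have hGinj : Function.Injective G := by
    intro v w hvw
    have h0 : ∀ i ∈ T, ((v : I → K₀) - (w : I → K₀)) i = 0 := by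
      intro i hi
      have h1 := hg v ⟨i, hi⟩
      have h2 := hg w ⟨i, hi⟩
      have h3 : g v ⟨i, hi⟩ = g w ⟨i, hi⟩ := congrFun hvw ⟨i, hi⟩
      rw [Pi.sub_apply, ← h1, ← h2, h3, sub_self]
    have h4 := hT _ (V.sub_mem v.2.1 w.2.1) h0
    exact Subtype.ext (sub_eq_zero.mp h4)
  exact Module.Finite.of_injective G hGinj

/-- **Lat-1** (orthonormal basis over a PID).  A finite-dimensional space `V` of functions
`I → K₀` with bounded denominators has a `K₀`-basis `y` of integral vectors such that a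
`K₀`-combination of the `y j` is integral iff all its coefficients are integral. -/
theorem exists_int_basis (V : Submodule K₀ (I → K₀)) [FiniteDimensional K₀ V]
    (hbdd : ∀ v ∈ V, ∃ a : A₀, a ≠ 0 ∧ IsIntVec A₀ (a • v)) :
    ∃ (n : ℕ) (y : Fin n → I → K₀),
      (∀ j, y j ∈ V) ∧ (∀ j, IsIntVec A₀ (y j)) ∧ LinearIndependent K₀ y ∧
      Submodule.span K₀ (Set.range y) = V ∧
      ∀ c : Fin n → K₀, IsIntVec A₀ (∑ j, c j • y j) →
        ∀ j, ∃ x : A₀, algebraMap A₀ K₀ x = c j := by
  classical
  have hfin : Module.Finite A₀ (intSub A₀ V) := intSub_finite V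
  have htf : Module.IsTorsionFree A₀ (intSub A₀ V) := intSub_isTorsionFree V
  have hfree : Module.Free A₀ (intSub A₀ V) := Module.free_of_finite_type_torsion_free'
  obtain ⟨n, b⟩ : Σ n : ℕ, Basis (Fin n) A₀ (intSub A₀ V) := ⟨_, Module.finBasis A₀ (intSub A₀ V)⟩
  let y : Fin n → I → K₀ := fun j => ((b j : intSub A₀ V) : I → K₀)
  have hyV : ∀ j, y j ∈ V := fun j => (b j).2.1
  have hyint : ∀ j, IsIntVec A₀ (y j) := fun j => (b j).2.2
  have hliA : LinearIndependent A₀ y :=
    b.linearIndependent.map' (intSub A₀ V).subtype (Submodule.ker_subtype _)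
  have hli : LinearIndependent K₀ y := (LinearIndependent.iff_fractionRing A₀ K₀).mp hliA
  -- every integral vector of `V` is an `A₀`-combination of the `y j`
  have hrepr : ∀ w ∈ V, IsIntVec A₀ w →
      ∃ r : Fin n → A₀, w = ∑ j, algebraMap A₀ K₀ (r j) • y j := by
    intro w hw hwint
    let w' : intSub A₀ V := ⟨w, hw, hwint⟩
    refine ⟨fun j => b.repr w' j, ?_⟩
    have h1 : w' = ∑ j, b.repr w' j • b j := (b.sum_repr w').symm
    have h2 := congrArg (intSub A₀ V).subtype h1
    rw [map_sum] at h2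
    rw [show w = (intSub A₀ V).subtype w' from rfl, h2]
    refine Finset.sum_congr rfl fun j _ => ?_
    rw [map_smul, algebraMap_smul]
    rfl
  refine ⟨n, y, hyV, hyint, hli, ?_, ?_⟩
  · apply le_antisymm
    · rw [Submodule.span_le]
      rintro _ ⟨j, rfl⟩
      exact hyV j
    · intro v hv
      obtain ⟨a, ha, haint⟩ := hbdd v hv
      obtain ⟨r, hr⟩ := hrepr (a • v) (V.smul_of_tower_mem a hv) haint
      have ha' : algebraMap A₀ K₀ a ≠ 0 := by
        simpa using (IsFractionRing.injective A₀ K₀).ne ha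
      have hv' : v = (algebraMap A₀ K₀ a)⁻¹ • (a • v) := by
        rw [← algebraMap_smul K₀ a v, smul_smul, inv_mul_cancel₀ ha', one_smul]
      rw [hv', hr]
      refine Submodule.smul_mem _ _ (Submodule.sum_mem _ fun j _ => ?_)
      exact Submodule.smul_mem _ _ (Submodule.subset_span ⟨j, rfl⟩)
  · intro c hc j
    have hw : (∑ j, c j • y j) ∈ V := V.sum_mem fun j _ => V.smul_mem _ (hyV j)
    obtain ⟨r, hr⟩ := hrepr _ hw hc
    have h0 : ∑ j, (c j - algebraMap A₀ K₀ (r j)) • y j = 0 := by
      simp only [sub_smul, Finset.sum_sub_distrib]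
      rw [← hr, sub_self]
    have := (Fintype.linearIndependent_iff.mp hli) _ h0 j
    exact ⟨r j, (sub_eq_zero.mp this).symm⟩

end Lat1

section Lat0

variable {A₀ K₀ : Type*} [CommRing A₀] [IsDomain A₀] [IsPrincipalIdealRing A₀]
  [Field K₀] [Algebra A₀ K₀] [IsFractionRing A₀ K₀]
  {V₀ : Type*} [AddCommGroup V₀] [Module K₀ V₀] [Module A₀ V₀] [IsScalarTower A₀ K₀ V₀]

/-- **Lat-0** (abstract form).  A bounded (contained in a finitely generated `A₀`-submodule) and
absorbing `A₀`-submodule `M` of a `K₀`-vector space is free, on a `K₀`-basis `y` of the space,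
and a `K₀`-combination of the `y j` lies in `M` iff its coefficients are integral. -/
theorem exists_basis_of_bounded_lattice (M : Submodule A₀ V₀)
    (habs : ∀ v : V₀, ∃ a : A₀, a ≠ 0 ∧ a • v ∈ M)
    (hbdd : ∃ N : Submodule A₀ V₀, N.FG ∧ M ≤ N) :
    ∃ (n : ℕ) (y : Fin n → V₀),
      (∀ j, y j ∈ M) ∧ LinearIndependent K₀ y ∧ Submodule.span K₀ (Set.range y) = ⊤ ∧
      (∀ c : Fin n → K₀, ∑ j, c j • y j ∈ M → ∀ j, ∃ x : A₀, algebraMap A₀ K₀ x = c j) ∧
      ∀ m ∈ M, ∃ r : Fin n → A₀, m = ∑ j, r j • y j := by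
  classical
  obtain ⟨N, hN, hMN⟩ := hbdd
  have hfin : Module.Finite A₀ M := Module.Finite.iff_fg.mpr (hN.of_le hMN)
  have hinj : Function.Injective (algebraMap A₀ K₀) := IsFractionRing.injective A₀ K₀
  have htf : Module.IsTorsionFree A₀ M := by
    refine Module.IsTorsionFree.of_smul_eq_zero (R := A₀) (M := M) fun a m h => ?_
    by_cases ha : a = 0
    · exact Or.inl ha
    right
    have h2 : algebraMap A₀ K₀ a • (m : V₀) = 0 := by
      have := congrArg Subtype.val h
      simpa [algebraMap_smul] using this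
    have h3 : algebraMap A₀ K₀ a ≠ 0 := by simpa using hinj.ne ha
    exact Subtype.ext ((smul_eq_zero.mp h2).resolve_left h3)
  have hfree : Module.Free A₀ M := Module.free_of_finite_type_torsion_free'
  obtain ⟨n, b⟩ : Σ n : ℕ, Basis (Fin n) A₀ M := ⟨_, Module.finBasis A₀ M⟩
  let y : Fin n → V₀ := fun j => ((b j : M) : V₀)
  have hyM : ∀ j, y j ∈ M := fun j => (b j).2
  have hliA : LinearIndependent A₀ y :=
    b.linearIndependent.map' M.subtype (Submodule.ker_subtype _)
  have hli : LinearIndependent K₀ y := (LinearIndependent.iff_fractionRing A₀ K₀).mp hliA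
  have hrepr : ∀ w ∈ M, ∃ r : Fin n → A₀, w = ∑ j, r j • y j := by
    intro w hw
    let w' : M := ⟨w, hw⟩
    refine ⟨fun j => b.repr w' j, ?_⟩
    have h1 : w' = ∑ j, b.repr w' j • b j := (b.sum_repr w').symm
    have h2 := congrArg M.subtype h1
    rw [map_sum] at h2
    rw [show w = M.subtype w' from rfl, h2]
    refine Finset.sum_congr rfl fun j _ => ?_
    rw [map_smul]
    rfl
  refine ⟨n, y, hyM, hli, ?_, ?_, hrepr⟩
  · rw [eq_top_iff]
    intro v _
    obtain ⟨a, ha, hav⟩ := habs v
    obtain ⟨r, hr⟩ := hrepr (a • v) hav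
    have ha' : algebraMap A₀ K₀ a ≠ 0 := by simpa using hinj.ne ha
    have hv' : v = (algebraMap A₀ K₀ a)⁻¹ • (a • v) := by
      rw [← algebraMap_smul K₀ a v, smul_smul, inv_mul_cancel₀ ha', one_smul]
    rw [hv', hr]
    refine Submodule.smul_mem _ _ (Submodule.sum_mem _ fun j _ => ?_)
    rw [← algebraMap_smul K₀ (r j) (y j)]
    exact Submodule.smul_mem _ _ (Submodule.subset_span ⟨j, rfl⟩)
  · intro c hc j
    obtain ⟨r, hr⟩ := hrepr _ hc
    have h0 : ∑ j, (c j - algebraMap A₀ K₀ (r j)) • y j = 0 := by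
      simp only [sub_smul, Finset.sum_sub_distrib, algebraMap_smul]
      rw [← hr, sub_self]
    have := (Fintype.linearIndependent_iff.mp hli) _ h0 j
    exact ⟨r j, (sub_eq_zero.mp this).symm⟩

end Lat0

section FieldExt

/-- linear independence of finitely many vectors of functions is preserved by extension of
scalars along a field homomorphism. -/
theorem linearIndependent_map_field {k₀ k : Type*} [Field k₀] [Field k] (ρ : k₀ →+* k)
    {I : Type*} {n : ℕ} (u : Fin n → I → k₀) (hu : LinearIndependent k₀ u) :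
    LinearIndependent k (fun j i => ρ (u j i)) := by
  classical
  let _ : Algebra k₀ k := ρ.toAlgebra
  rw [Fintype.linearIndependent_iff]
  intro c hc
  by_contra hne
  push Not at hne
  obtain ⟨j₀, hj₀⟩ := hne
  obtain ⟨f, hf⟩ : ∃ f : Module.Dual k₀ k, f (c j₀) ≠ 0 := by
    by_contra h
    push Not at h
    exact hj₀ ((Module.forall_dual_apply_eq_zero_iff k₀ (c j₀)).mp h)
  have h1 : ∑ j, f (c j) • u j = 0 := by
    funext i
    have h2 := congrFun hc i
    simp only [Finset.sum_apply, Pi.smul_apply, smul_eq_mul, Pi.zero_apply] at h2 ⊢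
    have h3 := congrArg f h2
    rw [map_sum, map_zero] at h3
    rw [← h3]
    refine Finset.sum_congr rfl fun j _ => ?_
    have h4 : c j * ρ (u j i) = (u j i) • c j := by
      rw [Algebra.smul_def, mul_comm]; rfl
    rw [h4, map_smul, smul_eq_mul, mul_comm]
  exact hf (Fintype.linearIndependent_iff.mp hu _ h1 j₀)

end FieldExt

section Lat2

variable {A₀ K₀ : Type*} [CommRing A₀] [IsDomain A₀] [IsDiscreteValuationRing A₀]
  [Field K₀] [Algebra A₀ K₀] [IsFractionRing A₀ K₀] {I : Type*}

/-- an `A₀`-combination of an orthonormal system which is divisible by the uniformizer has all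
its coefficients in the maximal ideal. -/
theorem mem_maximalIdeal_of_orth {n : ℕ} (y : Fin n → I → K₀)
    (horth : ∀ c : Fin n → K₀, IsIntVec A₀ (∑ j, c j • y j) →
      ∀ j, ∃ x : A₀, algebraMap A₀ K₀ x = c j)
    (d : Fin n → A₀)
    (hd : ∀ i, ∃ z ∈ IsLocalRing.maximalIdeal A₀,
      algebraMap A₀ K₀ z = ∑ j, algebraMap A₀ K₀ (d j) * y j i) :
    ∀ j, d j ∈ IsLocalRing.maximalIdeal A₀ := by
  obtain ⟨ϖ, hϖ⟩ := IsDiscreteValuationRing.exists_irreducible A₀
  have hinj : Function.Injective (algebraMap A₀ K₀) := IsFractionRing.injective A₀ K₀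
  have hϖ0 : algebraMap A₀ K₀ ϖ ≠ 0 := by
    simpa using hinj.ne hϖ.ne_zero
  have hint : IsIntVec A₀ (∑ j, (algebraMap A₀ K₀ (d j) / algebraMap A₀ K₀ ϖ) • y j) := by
    intro i
    obtain ⟨z, hz, hzeq⟩ := hd i
    rw [hϖ.maximalIdeal_eq, Ideal.mem_span_singleton] at hz
    obtain ⟨z', rfl⟩ := hz
    refine ⟨z', ?_⟩
    rw [Finset.sum_apply]
    simp only [Pi.smul_apply, smul_eq_mul, div_mul_eq_mul_div]
    rw [← Finset.sum_div, ← hzeq, map_mul, mul_div_cancel_left₀ _ hϖ0]
  intro j
  obtain ⟨e, he⟩ := horth _ hint j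
  rw [hϖ.maximalIdeal_eq, Ideal.mem_span_singleton]
  refine ⟨e, hinj ?_⟩
  rw [map_mul, he, mul_div_cancel₀ _ hϖ0]

variable {L : Type*} [Field L] (A : ValuationSubring L) (φ : K₀ →+* L)

/-- **Lat-2, core.**  Let `y` be an orthonormal system over the discrete valuation ring `A₀`
and let the valuation ring `A` of `L` dominate `A₀` along `φ : K₀ →+* L`.  If an `A`-combination
of the `φ ∘ y j` has all coordinates in the maximal ideal of `A`, then all coefficients lie in
the maximal ideal of `A`: the reductions of the `y j` stay linearly independent over the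
residue field of `A`. -/
theorem valuation_lt_one_of_orth
    (h1 : ∀ x : A₀, φ (algebraMap A₀ K₀ x) ∈ A)
    (h2 : ∀ x ∈ IsLocalRing.maximalIdeal A₀, A.valuation (φ (algebraMap A₀ K₀ x)) < 1)
    {n : ℕ} (y : Fin n → I → K₀) (hyint : ∀ j, IsIntVec A₀ (y j))
    (horth : ∀ c : Fin n → K₀, IsIntVec A₀ (∑ j, c j • y j) →
      ∀ j, ∃ x : A₀, algebraMap A₀ K₀ x = c j)
    (c : Fin n → A) (hc : ∀ i, A.valuation (∑ j, (c j : L) * φ (y j i)) < 1) :
    ∀ j, A.valuation (c j : L) < 1 := by
  classical
  -- integral preimages of the coordinates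
  choose x hx using hyint
  -- the local homomorphism `A₀ → A`
  let ψ : A₀ →+* A :=
    { toFun := fun a => ⟨φ (algebraMap A₀ K₀ a), h1 a⟩
      map_one' := by ext; simp
      map_mul' := fun a b => by ext; simp
      map_zero' := by ext; simp
      map_add' := fun a b => by ext; simp }
  have hψ : ∀ a, ((ψ a : A) : L) = φ (algebraMap A₀ K₀ a) := fun _ => rfl
  have : IsLocalHom ψ := by
    refine ⟨fun a ha => ?_⟩
    by_contra hna
    have hm : a ∈ IsLocalRing.maximalIdeal A₀ := (IsLocalRing.mem_maximalIdeal a).mpr hna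
    have hlt := h2 a hm
    have h1' : A.valuation ((ψ a : A) : L) = 1 := (A.valuation_eq_one_iff (ψ a)).mp ha
    rw [hψ] at h1'
    exact (ne_of_lt hlt) h1'
  let ρ : IsLocalRing.ResidueField A₀ →+* IsLocalRing.ResidueField A :=
    IsLocalRing.ResidueField.map ψ
  have hρ : ∀ a : A₀, ρ (IsLocalRing.residue A₀ a) = IsLocalRing.residue A (ψ a) := fun a => rfl
  -- reductions over the residue field of `A₀` are independent
  let u : Fin n → I → IsLocalRing.ResidueField A₀ := fun j i => IsLocalRing.residue A₀ (x j i)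
  have hu : LinearIndependent (IsLocalRing.ResidueField A₀) u := by
    rw [Fintype.linearIndependent_iff]
    intro g hg
    choose d hd using fun j => IsLocalRing.residue_surjective (g j)
    have key : ∀ j, d j ∈ IsLocalRing.maximalIdeal A₀ := by
      refine mem_maximalIdeal_of_orth y horth d fun i => ?_
      refine ⟨∑ j, d j * x j i, ?_, ?_⟩
      · rw [← IsLocalRing.residue_eq_zero_iff, map_sum]
        have h3 := congrFun hg i
        simp only [Finset.sum_apply, Pi.smul_apply, smul_eq_mul, Pi.zero_apply] at h3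
        rw [← h3]
        refine Finset.sum_congr rfl fun j _ => ?_
        rw [map_mul, hd j]
      · rw [map_sum]
        refine Finset.sum_congr rfl fun j _ => ?_
        rw [map_mul, hx j i]
    intro j
    rw [← hd j]
    exact (IsLocalRing.residue_eq_zero_iff (d j)).mpr (key j)
  have hu' := linearIndependent_map_field ρ u hu
  rw [Fintype.linearIndependent_iff] at hu'
  have hzero : ∑ j, IsLocalRing.residue A (c j) • (fun i => ρ (u j i)) = 0 := by
    funext i
    simp only [Finset.sum_apply, Pi.smul_apply, smul_eq_mul, Pi.zero_apply]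
    have h4 : ∑ j, IsLocalRing.residue A (c j) * ρ (u j i)
        = IsLocalRing.residue A (∑ j, c j * ψ (x j i)) := by
      rw [map_sum]
      refine Finset.sum_congr rfl fun j _ => ?_
      rw [map_mul, ← hρ]
    rw [h4, IsLocalRing.residue_eq_zero_iff, A.valuation_lt_one_iff]
    have h5 : ((∑ j, c j * ψ (x j i) : A) : L) = ∑ j, (c j : L) * φ (y j i) := by
      push_cast
      refine Finset.sum_congr rfl fun j _ => ?_
      rw [hψ, hx j i]
    rw [h5]
    exact hc i
  intro j
  have h6 := hu' _ hzero j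
  rw [IsLocalRing.residue_eq_zero_iff, A.valuation_lt_one_iff] at h6
  exact h6

/-- **Lat-2.**  An `L`-combination of the `φ ∘ y j` (orthonormal system over `A₀`, `A`
dominating `A₀`) with all coordinates in `A` has all its coefficients in `A`. -/
theorem mem_of_int_comb
    (h1 : ∀ x : A₀, φ (algebraMap A₀ K₀ x) ∈ A)
    (h2 : ∀ x ∈ IsLocalRing.maximalIdeal A₀, A.valuation (φ (algebraMap A₀ K₀ x)) < 1)
    {n : ℕ} (y : Fin n → I → K₀) (hyint : ∀ j, IsIntVec A₀ (y j))
    (horth : ∀ c : Fin n → K₀, IsIntVec A₀ (∑ j, c j • y j) →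
      ∀ j, ∃ x : A₀, algebraMap A₀ K₀ x = c j)
    (c : Fin n → L) (hc : ∀ i, ∑ j, c j * φ (y j i) ∈ A) :
    ∀ j, c j ∈ A := by
  classical
  by_contra hne
  push Not at hne
  obtain ⟨j₁, hj₁⟩ := hne
  obtain ⟨j₀, -, hmax⟩ := Finset.exists_max_image Finset.univ (fun j => A.valuation (c j))
    ⟨j₁, Finset.mem_univ _⟩
  have hgt : 1 < A.valuation (c j₀) := by
    have h3 : ¬ A.valuation (c j₁) ≤ 1 := fun h => hj₁ ((A.valuation_le_one_iff _).mp h)
    exact lt_of_lt_of_le (not_le.mp h3) (hmax j₁ (Finset.mem_univ _))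
  have hc0 : c j₀ ≠ 0 := by
    intro h0
    rw [h0, map_zero] at hgt
    exact not_lt.mpr zero_le_one hgt
  have hv0 : A.valuation (c j₀) ≠ 0 := (Valuation.ne_zero_iff _).mpr hc0
  have hmem : ∀ j, c j / c j₀ ∈ A := by
    intro j
    rw [← A.valuation_le_one_iff, map_div₀]
    exact div_le_one_of_le₀ (hmax j (Finset.mem_univ _)) zero_le
  let c' : Fin n → A := fun j => ⟨c j / c j₀, hmem j⟩
  have hlt : ∀ i, A.valuation (∑ j, (c' j : L) * φ (y j i)) < 1 := by
    intro i
    have h4 : ∑ j, (c' j : L) * φ (y j i) = (∑ j, c j * φ (y j i)) / c j₀ := by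
      rw [Finset.sum_div]
      refine Finset.sum_congr rfl fun j _ => ?_
      show c j / c j₀ * φ (y j i) = _
      ring
    rw [h4, map_div₀]
    have h5 : A.valuation (∑ j, c j * φ (y j i)) ≤ 1 := (A.valuation_le_one_iff _).mpr (hc i)
    exact (div_lt_one₀ (lt_of_le_of_ne zero_le hv0.symm)).mpr (lt_of_le_of_lt h5 hgt)
  have h6 := valuation_lt_one_of_orth A φ h1 h2 y hyint horth c' hlt j₀
  have h7 : ((c' j₀ : A) : L) = 1 := div_self hc0
  rw [h7, map_one] at h6
  exact lt_irrefl _ h6

end Lat2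

end Fermat.Agent.S18.H21
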