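/-
S18 / wave 4 (helper21): the lemma PRIM of leaf B1 (Gauss ring).

`A₀` a discrete valuation ring with fraction field `K₀`, `φ : K₀ →+* L`, `A` a valuation subring of
`L` dominating `A₀`.  Every nonzero `L`-linear combination `p` of finitely many vectors `g t : I → K₀`
with bounded denominators can be scaled to a *primitive* vector: `c • p` has all coordinates in `A`
and one coordinate is a unit (`exists_scale_prim`).  For Laurent series: `c • p` comes from a series
`Y ∈ A((q))` with nonzero reduction (`exists_scale_prim_laurent`).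
-/
import Fermat.Agent.S18.H21.Lattice
import Fermat.Prelude.Def_ModularCurve_LaurentCoeff

set_option autoImplicit false

noncomputable section

namespace Fermat.Agent.S18.H21

open Module ModularCurve

section Prim

variable {A₀ K₀ : Type*} [CommRing A₀] [IsDomain A₀] [IsDiscreteValuationRing A₀]
  [Field K₀] [Algebra A₀ K₀] [IsFractionRing A₀ K₀] {I : Type*}

/-- vectors with bounded denominators are stable under `K₀`-linear combinations. -/
theorem bdd_of_mem_span {r : ℕ} (g : Fin r → I → K₀)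
    (hg : ∀ t, ∃ a : A₀, a ≠ 0 ∧ IsIntVec A₀ (a • g t)) :
    ∀ v ∈ Submodule.span K₀ (Set.range g), ∃ a : A₀, a ≠ 0 ∧ IsIntVec A₀ (a • v) := by
  intro v hv
  induction hv using Submodule.span_induction with
  | mem x hx =>
      obtain ⟨t, rfl⟩ := hx
      exact hg t
  | zero => exact ⟨1, one_ne_zero, by rw [smul_zero]; exact isIntVec_zero⟩
  | add x y _ _ hx hy =>
      obtain ⟨a, ha, hax⟩ := hx
      obtain ⟨b, hb, hby⟩ := hy
      refine ⟨a * b, mul_ne_zero ha hb, ?_⟩
      have : (a * b) • (x + y) = b • (a • x) + a • (b • y) := by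
        funext i
        show (a * b) • (x i + y i) = b • (a • x i) + a • (b • y i)
        simp only [Algebra.smul_def, map_mul]
        ring
      rw [this]
      exact (hax.smul b).add (hby.smul a)
  | smul c x _ hx =>
      obtain ⟨a, ha, hax⟩ := hx
      obtain ⟨p, s, hs, rfl⟩ := IsFractionRing.div_surjective (A := A₀) c
      have hs0 : s ≠ 0 := nonZeroDivisors.ne_zero hs
      have hs0' : algebraMap A₀ K₀ s ≠ 0 :=
        (map_ne_zero_iff _ (IsFractionRing.injective A₀ K₀)).mpr hs0
      refine ⟨s * a, mul_ne_zero hs0 ha, ?_⟩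
      have : (s * a) • ((algebraMap A₀ K₀ p / algebraMap A₀ K₀ s) • x) = p • (a • x) := by
        funext i
        show (s * a) • ((algebraMap A₀ K₀ p / algebraMap A₀ K₀ s) * x i) = p • (a • x i)
        simp only [Algebra.smul_def, map_mul]
        field_simp
      rw [this]
      exact hax.smul p

variable {L : Type*} [Field L] (A : ValuationSubring L) (φ : K₀ →+* L)

/-- **PRIM, vector form.** -/
theorem exists_scale_prim
    (h1 : ∀ x : A₀, φ (algebraMap A₀ K₀ x) ∈ A)
    (h2 : ∀ x ∈ IsLocalRing.maximalIdeal A₀, A.valuation (φ (algebraMap A₀ K₀ x)) < 1)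
    {r : ℕ} (g : Fin r → I → K₀) (hg : ∀ t, ∃ a : A₀, a ≠ 0 ∧ IsIntVec A₀ (a • g t))
    (a : Fin r → L) (hne : ∃ i : I, ∑ t, a t * φ (g t i) ≠ 0) :
    ∃ c : L, c ≠ 0 ∧ (∀ i : I, c * ∑ t, a t * φ (g t i) ∈ A) ∧
      ∃ i : I, A.valuation (c * ∑ t, a t * φ (g t i)) = 1 := by
  classical
  set V : Submodule K₀ (I → K₀) := Submodule.span K₀ (Set.range g) with hV
  have : FiniteDimensional K₀ V := FiniteDimensional.span_of_finite K₀ (Set.finite_range g)
  obtain ⟨n, y, hyV, hyint, -, hspan, horth⟩ := exists_int_basis (A₀ := A₀) V (bdd_of_mem_span g hg)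
  -- coordinates of the `g t` in the basis `y`
  have hcoord : ∀ t, ∃ b : Fin n → K₀, ∑ j, b j • y j = g t := by
    intro t
    have : g t ∈ Submodule.span K₀ (Set.range y) := by
      rw [hspan]; exact Submodule.subset_span ⟨t, rfl⟩
    exact (Submodule.mem_span_range_iff_exists_fun K₀).mp this
  choose b hb using hcoord
  -- the combination in the basis `y`
  set c : Fin n → L := fun j => ∑ t, a t * φ (b t j) with hc
  have hexp : ∀ i : I, ∑ t, a t * φ (g t i) = ∑ j, c j * φ (y j i) := by
    intro i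
    have h3 : ∀ t, φ (g t i) = ∑ j, φ (b t j) * φ (y j i) := by
      intro t
      rw [← hb t, Finset.sum_apply, map_sum]
      refine Finset.sum_congr rfl fun j _ => ?_
      rw [Pi.smul_apply, smul_eq_mul, map_mul]
    simp only [hc, h3, Finset.mul_sum, Finset.sum_mul]
    rw [Finset.sum_comm]
    refine Finset.sum_congr rfl fun j _ => Finset.sum_congr rfl fun t _ => ?_
    ring
  -- some `c j` is nonzero
  obtain ⟨i₀, hi₀⟩ := hne
  have hcne : ∃ j, c j ≠ 0 := by
    by_contra h
    push Not at h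
    apply hi₀
    rw [hexp i₀]
    exact Finset.sum_eq_zero fun j _ => by rw [h j, zero_mul]
  obtain ⟨j₁, hj₁⟩ := hcne
  have hn : (Finset.univ : Finset (Fin n)).Nonempty := ⟨j₁, Finset.mem_univ _⟩
  obtain ⟨j₀, -, hmax⟩ := Finset.exists_max_image Finset.univ (fun j => A.valuation (c j)) hn
  have hj₀ : c j₀ ≠ 0 := by
    intro h0
    have := hmax j₁ (Finset.mem_univ _)
    rw [h0, map_zero] at this
    exact hj₁ ((Valuation.zero_iff _).mp (le_antisymm this zero_le))
  have hv0 : A.valuation (c j₀) ≠ 0 := (Valuation.ne_zero_iff _).mpr hj₀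
  -- the normalised coefficients lie in `A`
  have hd : ∀ j, (c j₀)⁻¹ * c j ∈ A := by
    intro j
    rw [← A.valuation_le_one_iff, map_mul, map_inv₀]
    rw [inv_mul_le_iff₀ (zero_lt_iff.mpr hv0), mul_one]
    exact hmax j (Finset.mem_univ _)
  -- the `φ (y j i)` lie in `A`
  have hyA : ∀ j i, φ (y j i) ∈ A := by
    intro j i
    obtain ⟨x, hx⟩ := hyint j i
    rw [← hx]; exact h1 x
  have hexp' : ∀ i : I, (c j₀)⁻¹ * ∑ t, a t * φ (g t i)
      = ∑ j, ((c j₀)⁻¹ * c j) * φ (y j i) := by
    intro i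
    rw [hexp i, Finset.mul_sum]
    exact Finset.sum_congr rfl fun j _ => (mul_assoc _ _ _).symm
  refine ⟨(c j₀)⁻¹, inv_ne_zero hj₀, ?_, ?_⟩
  · intro i
    rw [hexp' i]
    exact sum_mem fun j _ => mul_mem (hd j) (hyA j i)
  · by_contra hall
    push Not at hall
    have hlt : ∀ i, A.valuation (∑ j, (((⟨(c j₀)⁻¹ * c j, hd j⟩ : A) : L)) * φ (y j i)) < 1 := by
      intro i
      have hle : A.valuation (∑ j, ((c j₀)⁻¹ * c j) * φ (y j i)) ≤ 1 :=
        (A.valuation_le_one_iff _).mpr (sum_mem fun j _ => mul_mem (hd j) (hyA j i))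
      have hne1 := hall i
      rw [hexp' i] at hne1
      exact lt_of_le_of_ne hle hne1
    have h5 := valuation_lt_one_of_orth A φ h1 h2 y hyint horth
      (fun j => (⟨(c j₀)⁻¹ * c j, hd j⟩ : A)) hlt j₀
    simp only [inv_mul_cancel₀ hj₀, map_one] at h5
    exact lt_irrefl _ h5

end Prim

section Laurent

variable {L : Type*} [Field L] (A : ValuationSubring L)

/-- A Laurent series over `L` all of whose coefficients lie in `A` comes from `A((q))`. -/
theorem exists_laurent_of_coeff_mem (f : LaurentSeries L) (hf : ∀ n, f.coeff n ∈ A) :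
    ∃ Y : LaurentSeries A, coeffMap A.subtype Y = f := by
  refine ⟨⟨fun n => ⟨f.coeff n, hf n⟩, f.isPWO_support.mono ?_⟩, ?_⟩
  · intro n hn
    rw [HahnSeries.mem_support]
    intro h0
    exact hn (Subtype.ext h0)
  · ext n
    rfl

theorem coeffMap_subtype_injective : Function.Injective (coeffMap A.subtype) := by
  intro x y h
  ext n
  have := congrArg (fun z : LaurentSeries L => z.coeff n) h
  exact this

/-- `Y ∈ A((q))` has nonzero reduction iff one of its coefficients is a unit. -/
theorem coeffMap_residue_ne_zero_iff (Y : LaurentSeries A) :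
    coeffMap (IsLocalRing.residue A) Y ≠ 0 ↔ ∃ n, A.valuation ((Y.coeff n : A) : L) = 1 := by
  constructor
  · intro h
    by_contra hall
    push Not at hall
    apply h
    ext n
    rw [coeffMap_coeff, HahnSeries.coeff_zero, IsLocalRing.residue_eq_zero_iff,
      ValuationSubring.valuation_lt_one_iff]
    exact lt_of_le_of_ne (A.valuation_le_one _) (hall n)
  · rintro ⟨n, hn⟩ h
    have h0 := congrArg (fun z : LaurentSeries (IsLocalRing.ResidueField A) => z.coeff n) h
    simp only [coeffMap_coeff, HahnSeries.coeff_zero] at h0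
    rw [IsLocalRing.residue_eq_zero_iff, ValuationSubring.valuation_lt_one_iff, hn] at h0
    exact lt_irrefl _ h0

/-- `Y ∈ A((q))` has zero reduction iff all its coefficients are nonunits. -/
theorem coeffMap_residue_eq_zero_iff (Y : LaurentSeries A) :
    coeffMap (IsLocalRing.residue A) Y = 0 ↔ ∀ n, A.valuation ((Y.coeff n : A) : L) < 1 := by
  constructor
  · intro h n
    have h0 := congrArg (fun z : LaurentSeries (IsLocalRing.ResidueField A) => z.coeff n) h
    simp only [coeffMap_coeff, HahnSeries.coeff_zero] at h0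
    rwa [IsLocalRing.residue_eq_zero_iff, ValuationSubring.valuation_lt_one_iff] at h0
  · intro h
    ext n
    rw [coeffMap_coeff, HahnSeries.coeff_zero, IsLocalRing.residue_eq_zero_iff,
      ValuationSubring.valuation_lt_one_iff]
    exact h n

variable {A₀ K₀ : Type*} [CommRing A₀] [IsDomain A₀] [IsDiscreteValuationRing A₀]
  [Field K₀] [Algebra A₀ K₀] [IsFractionRing A₀ K₀] (φ : K₀ →+* L)

/-- **PRIM, Laurent series form.**  A nonzero `L`-linear combination `p` of finitely many series
`coeffMap φ (g t)`, `g t ∈ K₀((q))` with bounded denominators, is `c⁻¹ • Y` for a constant `c ≠ 0`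
and a series `Y ∈ A((q))` with nonzero reduction. -/
theorem exists_scale_prim_laurent
    (h1 : ∀ x : A₀, φ (algebraMap A₀ K₀ x) ∈ A)
    (h2 : ∀ x ∈ IsLocalRing.maximalIdeal A₀, A.valuation (φ (algebraMap A₀ K₀ x)) < 1)
    {r : ℕ} (g : Fin r → LaurentSeries K₀)
    (hg : ∀ t, ∃ a : A₀, a ≠ 0 ∧ IsIntVec A₀ (a • fun n : ℤ => (g t).coeff n))
    (a : Fin r → L) (hp : ∑ t, a t • coeffMap φ (g t) ≠ 0) :
    ∃ c : L, c ≠ 0 ∧ ∃ Y : LaurentSeries A,
      coeffMap A.subtype Y = c • ∑ t, a t • coeffMap φ (g t) ∧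
      coeffMap (IsLocalRing.residue A) Y ≠ 0 := by
  have hcoeff : ∀ n : ℤ, (∑ t, a t • coeffMap φ (g t)).coeff n
      = ∑ t, a t * φ ((g t).coeff n) := by
    intro n
    rw [HahnSeries.coeff_sum]
    exact Finset.sum_congr rfl fun t _ => by
      rw [HahnSeries.coeff_smul, coeffMap_coeff, smul_eq_mul]
  have hne : ∃ n : ℤ, ∑ t, a t * φ ((fun (t : Fin r) (n : ℤ) => (g t).coeff n) t n) ≠ 0 := by
    by_contra h
    push Not at h
    apply hp
    ext n
    rw [hcoeff n, HahnSeries.coeff_zero]
    exact h n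
  obtain ⟨c, hc0, hcA, n₀, hn₀⟩ := exists_scale_prim A φ h1 h2
    (fun (t : Fin r) (n : ℤ) => (g t).coeff n) hg a hne
  have hmem : ∀ n, (c • ∑ t, a t • coeffMap φ (g t)).coeff n ∈ A := by
    intro n
    rw [HahnSeries.coeff_smul, hcoeff n, smul_eq_mul]
    exact hcA n
  obtain ⟨Y, hY⟩ := exists_laurent_of_coeff_mem A _ hmem
  refine ⟨c, hc0, Y, hY, (coeffMap_residue_ne_zero_iff A Y).mpr ⟨n₀, ?_⟩⟩
  have h3 : ((Y.coeff n₀ : A) : L) = (c • ∑ t, a t • coeffMap φ (g t)).coeff n₀ := by
    rw [← hY]; rfl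
  rw [h3, HahnSeries.coeff_smul, hcoeff n₀, smul_eq_mul]
  exact hn₀

end Laurent

end Fermat.Agent.S18.H21
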