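/-
S18 / wave 4 (helper21): leaf B1 — the Gauss valuation ring of a field of Laurent series.

`K` a field, `A` a valuation subring, `k` its residue field.  For `f ∈ K((q))`:
* `IsGaussInt A f`   : `f * Y₂ = Y₁` with `Y₁, Y₂ ∈ A((q))`, `red Y₂ ≠ 0`      ("`|f| ≤ 1`"),
* `IsGaussSmall A f` : the same with `red Y₁ = 0`                               ("`|f| < 1`"),
* `IsGaussUnit A f`  : the same with `red Y₁ ≠ 0`                               ("`|f| = 1`").
If every nonzero element of a subfield `F ⊆ K((q))` is a constant times a Gauss unit (hypothesis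
`hF`, proved for the modular function fields in `GaussRingFN.lean` from the lemma PRIM), then
`gaussRing A F hF : ValuationSubring F` has carrier `{f | IsGaussInt A f}`, satisfies `mem_iff` and
`scale` of `Setup`, its nonunits are the Gauss-small elements, and `gaussRes` is the reduction
homomorphism to `k((q))` with kernel the nonunits.
-/
import Fermat.Agent.S18.H21.Prim

set_option autoImplicit false

noncomputable section

namespace Fermat.Agent.S18.H21

open ModularCurve

section Gauss

variable {K : Type*} [Field K] (A : ValuationSubring K)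

/-- "`|f| ≤ 1`": `f = Y₁ / Y₂` with `Y₁, Y₂ ∈ A((q))` and `Y₂` of nonzero reduction. -/
def IsGaussInt (f : LaurentSeries K) : Prop :=
  ∃ y₁ y₂ : LaurentSeries A, coeffMap (IsLocalRing.residue A) y₂ ≠ 0 ∧
    f * coeffMap A.subtype y₂ = coeffMap A.subtype y₁

/-- "`|f| < 1`". -/
def IsGaussSmall (f : LaurentSeries K) : Prop :=
  ∃ y₁ y₂ : LaurentSeries A, coeffMap (IsLocalRing.residue A) y₂ ≠ 0 ∧
    coeffMap (IsLocalRing.residue A) y₁ = 0 ∧
    f * coeffMap A.subtype y₂ = coeffMap A.subtype y₁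

/-- "`|f| = 1`". -/
def IsGaussUnit (f : LaurentSeries K) : Prop :=
  ∃ y₁ y₂ : LaurentSeries A, coeffMap (IsLocalRing.residue A) y₁ ≠ 0 ∧
    coeffMap (IsLocalRing.residue A) y₂ ≠ 0 ∧
    f * coeffMap A.subtype y₂ = coeffMap A.subtype y₁

variable {A}

theorem coeffMap_subtype_ne_zero {y : LaurentSeries A}
    (hy : coeffMap (IsLocalRing.residue A) y ≠ 0) : coeffMap A.subtype y ≠ 0 := by
  intro h
  apply hy
  have : y = 0 := coeffMap_subtype_injective A (by rw [h, map_zero])
  rw [this, map_zero]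

/-- the scalar action of `A` on `A((q))` is compatible with that of `K` on `K((q))`. -/
theorem coeffMap_subtype_smul (a : A) (y : LaurentSeries A) :
    coeffMap A.subtype (a • y) = (a : K) • coeffMap A.subtype y := by
  ext n
  rw [coeffMap_coeff, HahnSeries.coeff_smul, HahnSeries.coeff_smul, coeffMap_coeff]
  rfl

theorem coeffMap_residue_smul (a : A) (y : LaurentSeries A) :
    coeffMap (IsLocalRing.residue A) (a • y)
      = IsLocalRing.residue A a • coeffMap (IsLocalRing.residue A) y := by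
  ext n
  rw [coeffMap_coeff, HahnSeries.coeff_smul, HahnSeries.coeff_smul, coeffMap_coeff, smul_eq_mul,
    smul_eq_mul, map_mul]

theorem IsGaussSmall.isGaussInt {f : LaurentSeries K} (h : IsGaussSmall A f) : IsGaussInt A f := by
  obtain ⟨y₁, y₂, h2, -, h⟩ := h
  exact ⟨y₁, y₂, h2, h⟩

theorem IsGaussUnit.isGaussInt {f : LaurentSeries K} (h : IsGaussUnit A f) : IsGaussInt A f := by
  obtain ⟨y₁, y₂, -, h2, h⟩ := h
  exact ⟨y₁, y₂, h2, h⟩

theorem IsGaussUnit.ne_zero {f : LaurentSeries K} (h : IsGaussUnit A f) : f ≠ 0 := by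
  obtain ⟨y₁, y₂, h1, h2, h⟩ := h
  rintro rfl
  rw [zero_mul] at h
  exact coeffMap_subtype_ne_zero h1 h.symm

theorem IsGaussUnit.inv {f : LaurentSeries K} (h : IsGaussUnit A f) : IsGaussUnit A f⁻¹ := by
  have hf := h.ne_zero
  obtain ⟨y₁, y₂, h1, h2, h⟩ := h
  refine ⟨y₂, y₁, h2, h1, ?_⟩
  rw [← h, ← mul_assoc, inv_mul_cancel₀ hf, one_mul]

variable (A) in
theorem isGaussInt_zero : IsGaussInt A (0 : LaurentSeries K) :=
  ⟨0, 1, by rw [map_one]; exact one_ne_zero, by rw [map_zero, zero_mul]⟩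

variable (A) in
theorem isGaussInt_one : IsGaussInt A (1 : LaurentSeries K) :=
  ⟨1, 1, by rw [map_one]; exact one_ne_zero, by rw [map_one, one_mul]⟩

/-- an element of `A((q))` is Gauss-integral. -/
theorem isGaussInt_coeffMap (Y : LaurentSeries A) : IsGaussInt A (coeffMap A.subtype Y) :=
  ⟨Y, 1, by rw [map_one]; exact one_ne_zero, by rw [map_one, mul_one]⟩

theorem IsGaussInt.add {f g : LaurentSeries K} (hf : IsGaussInt A f) (hg : IsGaussInt A g) :
    IsGaussInt A (f + g) := by
  obtain ⟨y₁, y₂, hy, hfy⟩ := hf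
  obtain ⟨z₁, z₂, hz, hgz⟩ := hg
  refine ⟨y₁ * z₂ + z₁ * y₂, y₂ * z₂, ?_, ?_⟩
  · rw [map_mul]; exact mul_ne_zero hy hz
  · rw [map_mul, map_add, map_mul, map_mul, ← hfy, ← hgz]; ring

theorem IsGaussInt.mul {f g : LaurentSeries K} (hf : IsGaussInt A f) (hg : IsGaussInt A g) :
    IsGaussInt A (f * g) := by
  obtain ⟨y₁, y₂, hy, hfy⟩ := hf
  obtain ⟨z₁, z₂, hz, hgz⟩ := hg
  refine ⟨y₁ * z₁, y₂ * z₂, ?_, ?_⟩
  · rw [map_mul]; exact mul_ne_zero hy hz
  · rw [map_mul, map_mul, ← hfy, ← hgz]; ring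

theorem IsGaussInt.neg {f : LaurentSeries K} (hf : IsGaussInt A f) : IsGaussInt A (-f) := by
  obtain ⟨y₁, y₂, hy, hfy⟩ := hf
  exact ⟨-y₁, y₂, hy, by rw [map_neg, ← hfy, neg_mul]⟩

/-- Two presentations of the same function have the same reduction. -/
theorem red_mul_eq_of_eq {f : LaurentSeries K} {y₁ y₂ z₁ z₂ : LaurentSeries A}
    (hy : f * coeffMap A.subtype y₂ = coeffMap A.subtype y₁)
    (hz : f * coeffMap A.subtype z₂ = coeffMap A.subtype z₁) :
    coeffMap (IsLocalRing.residue A) y₁ * coeffMap (IsLocalRing.residue A) z₂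
      = coeffMap (IsLocalRing.residue A) z₁ * coeffMap (IsLocalRing.residue A) y₂ := by
  have h : y₁ * z₂ = z₁ * y₂ := by
    apply coeffMap_subtype_injective A
    rw [map_mul, map_mul, ← hy, ← hz]; ring
  rw [← map_mul, ← map_mul, h]

/-- A Gauss-small function is not a Gauss unit. -/
theorem IsGaussSmall.not_isGaussInt_inv {f : LaurentSeries K} (hf : IsGaussSmall A f)
    (hf0 : f ≠ 0) : ¬ IsGaussInt A f⁻¹ := by
  rintro ⟨z₁, z₂, hz, hfz⟩
  obtain ⟨y₁, y₂, hy, hy1, hfy⟩ := hf
  -- `z₂ y₂ = z₁ y₁`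
  have h : z₂ * y₂ = z₁ * y₁ := by
    apply coeffMap_subtype_injective A
    rw [map_mul, map_mul, ← hfy, ← hfz]
    field_simp
  have h' := congrArg (coeffMap (IsLocalRing.residue A)) h
  rw [map_mul, map_mul, hy1, mul_zero] at h'
  exact mul_ne_zero hz hy h'

theorem isGaussSmall_of_not_inv {f : LaurentSeries K} (hf : IsGaussInt A f)
    (hinv : f ≠ 0 → ¬ IsGaussInt A f⁻¹) : IsGaussSmall A f := by
  obtain ⟨y₁, y₂, hy, hfy⟩ := hf
  refine ⟨y₁, y₂, hy, ?_, hfy⟩
  by_contra h1
  have hf0 : f ≠ 0 := by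
    rintro rfl
    rw [zero_mul] at hfy
    exact coeffMap_subtype_ne_zero h1 hfy.symm
  exact hinv hf0 ⟨y₂, y₁, h1, by rw [← hfy, ← mul_assoc, inv_mul_cancel₀ hf0, one_mul]⟩

/-- the constant series. -/
theorem algebraMap_mul_eq_smul (a : K) (x : LaurentSeries K) :
    algebraMap K (LaurentSeries K) a * x = a • x := by
  rw [algebraMap_laurentSeries_eq_single]
  exact HahnSeries.single_zero_mul_eq_smul

/-- constants: `a ∈ K` is Gauss-integral iff `a ∈ A`. -/
theorem isGaussInt_algebraMap_iff (a : K) :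
    IsGaussInt A (algebraMap K (LaurentSeries K) a) ↔ a ∈ A := by
  constructor
  · rintro ⟨y₁, y₂, hy, h⟩
    obtain ⟨n, hn⟩ := (coeffMap_residue_ne_zero_iff A y₂).mp hy
    rw [algebraMap_mul_eq_smul] at h
    have h1 : a * ((y₂.coeff n : A) : K) = ((y₁.coeff n : A) : K) := by
      have := congrArg (fun z : LaurentSeries K => z.coeff n) h
      simp only [HahnSeries.coeff_smul, coeffMap_coeff, smul_eq_mul] at this
      exact this
    have h2 : A.valuation (a * ((y₂.coeff n : A) : K)) ≤ 1 := by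
      rw [h1]; exact A.valuation_le_one _
    rw [map_mul, hn, mul_one] at h2
    exact (A.valuation_le_one_iff a).mp h2
  · intro ha
    refine ⟨(⟨a, ha⟩ : A) • (1 : LaurentSeries A), 1, by rw [map_one]; exact one_ne_zero, ?_⟩
    rw [map_one, mul_one, coeffMap_subtype_smul, map_one, ← algebraMap_mul_eq_smul, mul_one]

/-- scaling by a constant of `A`. -/
theorem IsGaussInt.smul {f : LaurentSeries K} (hf : IsGaussInt A f) {a : K} (ha : a ∈ A) :
    IsGaussInt A (a • f) := by
  rw [← algebraMap_mul_eq_smul]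
  exact ((isGaussInt_algebraMap_iff a).mpr ha).mul hf

end Gauss

section Ring

variable {K : Type*} [Field K] (A : ValuationSubring K)
  (F : IntermediateField K (LaurentSeries K))
  (hF : ∀ f : F, f ≠ 0 → ∃ c : K, c ≠ 0 ∧ IsGaussUnit A (c • (f : LaurentSeries K)))

/-- **The Gauss valuation ring** of a field `F ⊆ K((q))` all of whose nonzero elements are
constants times Gauss units. -/
def gaussRing : ValuationSubring F where
  carrier := {f | IsGaussInt A (f : LaurentSeries K)}
  mul_mem' := fun {a b} ha hb => by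
    show IsGaussInt A ((a * b : F) : LaurentSeries K)
    rw [MulMemClass.coe_mul]; exact IsGaussInt.mul ha hb
  one_mem' := isGaussInt_one A
  add_mem' := fun {a b} ha hb => by
    show IsGaussInt A ((a + b : F) : LaurentSeries K)
    rw [AddMemClass.coe_add]; exact IsGaussInt.add ha hb
  zero_mem' := isGaussInt_zero A
  neg_mem' := fun {a} ha => by
    show IsGaussInt A ((-a : F) : LaurentSeries K)
    rw [NegMemClass.coe_neg]; exact IsGaussInt.neg ha
  mem_or_inv_mem' := by
    intro f
    by_cases hf : f = 0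
    · left; rw [hf]; exact isGaussInt_zero A
    obtain ⟨c, hc0, y₁, y₂, h1, h2, h⟩ := hF f hf
    have hf' : (f : LaurentSeries K) ≠ 0 := fun h0 => hf (Subtype.ext h0)
    rcases A.mem_or_inv_mem c with hc | hc
    · -- `f⁻¹ = c • y₂ / y₁`
      right
      show IsGaussInt A ((f⁻¹ : F) : LaurentSeries K)
      refine ⟨(⟨c, hc⟩ : A) • y₂, y₁, h1, ?_⟩
      rw [coeffMap_subtype_smul, ← h, IntermediateField.coe_inv, ← algebraMap_mul_eq_smul,
        ← algebraMap_mul_eq_smul]
      field_simp
    · -- `f = c⁻¹ • y₁ / y₂`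
      left
      show IsGaussInt A (f : LaurentSeries K)
      refine ⟨(⟨c⁻¹, hc⟩ : A) • y₁, y₂, h2, ?_⟩
      rw [coeffMap_subtype_smul, ← h, ← algebraMap_mul_eq_smul, ← algebraMap_mul_eq_smul,
        ← mul_assoc, ← mul_assoc, ← map_mul]
      show (f : LaurentSeries K) * _ = algebraMap K (LaurentSeries K) (c⁻¹ * c) * _ * _
      rw [inv_mul_cancel₀ hc0, map_one, one_mul]

theorem mem_gaussRing_iff (f : F) :
    f ∈ gaussRing A F hF ↔ IsGaussInt A (f : LaurentSeries K) := Iff.rfl

/-- `Setup.mem_iff` for the Gauss ring. -/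
theorem algebraMap_mem_gaussRing_iff (a : K) : algebraMap K F a ∈ gaussRing A F hF ↔ a ∈ A :=
  isGaussInt_algebraMap_iff a

/-- `Setup.scale` for the Gauss ring. -/
theorem gaussRing_scale (f : F) (hf : f ≠ 0) :
    ∃ c : K, c ≠ 0 ∧ algebraMap K F c * f ∈ gaussRing A F hF ∧
      (algebraMap K F c * f)⁻¹ ∈ gaussRing A F hF := by
  obtain ⟨c, hc0, hu⟩ := hF f hf
  have hcoe : ((algebraMap K F c * f : F) : LaurentSeries K) = c • (f : LaurentSeries K) := by
    rw [← algebraMap_mul_eq_smul]; rfl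
  refine ⟨c, hc0, ?_, ?_⟩
  · show IsGaussInt A ((algebraMap K F c * f : F) : LaurentSeries K)
    rw [hcoe]; exact hu.isGaussInt
  · show IsGaussInt A (((algebraMap K F c * f)⁻¹ : F) : LaurentSeries K)
    rw [IntermediateField.coe_inv, hcoe]; exact hu.inv.isGaussInt

/-- the nonunits of the Gauss ring are the Gauss-small functions. -/
theorem mem_nonunits_gaussRing_iff (f : F) :
    f ∈ (gaussRing A F hF).nonunits ↔ IsGaussSmall A (f : LaurentSeries K) := by
  by_cases hf : f = 0
  · subst hf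
    constructor
    · intro _
      exact ⟨0, 1, by rw [map_one]; exact one_ne_zero, map_zero _,
        by rw [map_zero]; exact zero_mul _⟩
    · intro _
      rw [ValuationSubring.mem_nonunits_iff, map_zero]; exact zero_lt_one
  have hf' : (f : LaurentSeries K) ≠ 0 := fun h0 => hf (Subtype.ext h0)
  have hval : f ∈ (gaussRing A F hF).nonunits ↔ f⁻¹ ∉ gaussRing A F hF := by
    rw [ValuationSubring.mem_nonunits_iff, ← (gaussRing A F hF).valuation_le_one_iff, map_inv₀,
      not_le]
    have h0 : 0 < (gaussRing A F hF).valuation f :=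
      zero_lt_iff.mpr ((Valuation.ne_zero_iff _).mpr hf)
    exact ⟨fun h => (one_lt_inv₀ h0).mpr h, fun h => (one_lt_inv₀ h0).mp h⟩
  rw [hval]
  constructor
  · intro hinv
    have hmem : f ∈ gaussRing A F hF := by
      rcases (gaussRing A F hF).mem_or_inv_mem f with h | h
      · exact h
      · exact absurd h hinv
    refine isGaussSmall_of_not_inv hmem fun _ h => hinv ?_
    show IsGaussInt A ((f⁻¹ : F) : LaurentSeries K)
    rw [IntermediateField.coe_inv]; exact h
  · intro hs hinv
    have : IsGaussInt A ((f⁻¹ : F) : LaurentSeries K) := hinv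
    rw [IntermediateField.coe_inv] at this
    exact hs.not_isGaussInt_inv hf' this

/-- integral series in `F` lie in the Gauss ring. -/
theorem coeffMap_mem_gaussRing (Y : LaurentSeries A) (hY : coeffMap A.subtype Y ∈ F) :
    (⟨coeffMap A.subtype Y, hY⟩ : F) ∈ gaussRing A F hF :=
  isGaussInt_coeffMap Y

/-! ### The reduction homomorphism -/

/-- reduction of a Gauss-integral function: `red Y₁ / red Y₂`. -/
def gaussRedFun (f : LaurentSeries K) (hf : IsGaussInt A f) :
    LaurentSeries (IsLocalRing.ResidueField A) :=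
  coeffMap (IsLocalRing.residue A) hf.choose /
    coeffMap (IsLocalRing.residue A) hf.choose_spec.choose

theorem gaussRedFun_eq {f : LaurentSeries K} (hf : IsGaussInt A f) {y₁ y₂ : LaurentSeries A}
    (hy : coeffMap (IsLocalRing.residue A) y₂ ≠ 0)
    (h : f * coeffMap A.subtype y₂ = coeffMap A.subtype y₁) :
    gaussRedFun A f hf
      = coeffMap (IsLocalRing.residue A) y₁ / coeffMap (IsLocalRing.residue A) y₂ := by
  unfold gaussRedFun
  have h2 := hf.choose_spec.choose_spec
  rw [div_eq_div_iff h2.1 hy]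
  exact red_mul_eq_of_eq h2.2 h

/-- the reduction of an element of the Gauss ring. -/
def gaussResFun (f : gaussRing A F hF) : LaurentSeries (IsLocalRing.ResidueField A) :=
  gaussRedFun A ((f : F) : LaurentSeries K) ((mem_gaussRing_iff A F hF f).mp f.2)

theorem gaussResFun_eq (f : gaussRing A F hF) {y₁ y₂ : LaurentSeries A}
    (hy : coeffMap (IsLocalRing.residue A) y₂ ≠ 0)
    (h : ((f : F) : LaurentSeries K) * coeffMap A.subtype y₂ = coeffMap A.subtype y₁) :
    gaussResFun A F hF f
      = coeffMap (IsLocalRing.residue A) y₁ / coeffMap (IsLocalRing.residue A) y₂ :=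
  gaussRedFun_eq A _ hy h

theorem gaussRing_exists_presentation (f : gaussRing A F hF) :
    ∃ y₁ y₂ : LaurentSeries A, coeffMap (IsLocalRing.residue A) y₂ ≠ 0 ∧
      ((f : F) : LaurentSeries K) * coeffMap A.subtype y₂ = coeffMap A.subtype y₁ :=
  (mem_gaussRing_iff A F hF f).mp f.2

/-- **The reduction homomorphism** of the Gauss ring, with values in `k((q))`. -/
def gaussRes : gaussRing A F hF →+* LaurentSeries (IsLocalRing.ResidueField A) where
  toFun := gaussResFun A F hF
  map_one' := by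
    rw [gaussResFun_eq A F hF 1 (y₁ := 1) (y₂ := 1) (by rw [map_one]; exact one_ne_zero)
      (by rw [map_one, mul_one]; rfl), map_one, div_one]
  map_zero' := by
    rw [gaussResFun_eq A F hF 0 (y₁ := 0) (y₂ := 1) (by rw [map_one]; exact one_ne_zero)
      (by rw [map_one, mul_one, map_zero]; rfl), map_zero, zero_div]
  map_mul' := by
    intro f g
    obtain ⟨y₁, y₂, hy, hfy⟩ := gaussRing_exists_presentation A F hF f
    obtain ⟨z₁, z₂, hz, hgz⟩ := gaussRing_exists_presentation A F hF g
    rw [gaussResFun_eq A F hF f hy hfy, gaussResFun_eq A F hF g hz hgz,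
      gaussResFun_eq A F hF (f * g) (y₁ := y₁ * z₁) (y₂ := y₂ * z₂)
        (by rw [map_mul]; exact mul_ne_zero hy hz)
        (by
          show ((f : F) : LaurentSeries K) * ((g : F) : LaurentSeries K) * _ = _
          rw [map_mul, map_mul, ← hfy, ← hgz]; ring),
      map_mul, map_mul, mul_div_mul_comm]
  map_add' := by
    intro f g
    obtain ⟨y₁, y₂, hy, hfy⟩ := gaussRing_exists_presentation A F hF f
    obtain ⟨z₁, z₂, hz, hgz⟩ := gaussRing_exists_presentation A F hF g
    rw [gaussResFun_eq A F hF f hy hfy, gaussResFun_eq A F hF g hz hgz,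
      gaussResFun_eq A F hF (f + g) (y₁ := y₁ * z₂ + z₁ * y₂) (y₂ := y₂ * z₂)
        (by rw [map_mul]; exact mul_ne_zero hy hz)
        (by
          show (((f : F) : LaurentSeries K) + ((g : F) : LaurentSeries K)) * _ = _
          rw [map_mul, map_add, map_mul, map_mul, ← hfy, ← hgz]; ring),
      map_add, map_mul, map_mul, map_mul, div_add_div _ _ hy hz, mul_comm (coeffMap _ z₁)]

theorem gaussRes_eq (f : gaussRing A F hF) {y₁ y₂ : LaurentSeries A}
    (hy : coeffMap (IsLocalRing.residue A) y₂ ≠ 0)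
    (h : ((f : F) : LaurentSeries K) * coeffMap A.subtype y₂ = coeffMap A.subtype y₁) :
    gaussRes A F hF f
      = coeffMap (IsLocalRing.residue A) y₁ / coeffMap (IsLocalRing.residue A) y₂ :=
  gaussResFun_eq A F hF f hy h

/-- the kernel of the reduction homomorphism is the maximal ideal. -/
theorem gaussRes_eq_zero_iff (f : gaussRing A F hF) :
    gaussRes A F hF f = 0 ↔ (f : F) ∈ (gaussRing A F hF).nonunits := by
  rw [mem_nonunits_gaussRing_iff]
  constructor
  · intro h0
    obtain ⟨y₁, y₂, hy, hfy⟩ := gaussRing_exists_presentation A F hF f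
    rw [gaussRes_eq A F hF f hy hfy, div_eq_zero_iff] at h0
    exact ⟨y₁, y₂, hy, h0.resolve_right hy, hfy⟩
  · rintro ⟨y₁, y₂, hy, hy1, hfy⟩
    rw [gaussRes_eq A F hF f hy hfy, hy1, zero_div]

/-- on integral series the reduction homomorphism is the coefficientwise reduction. -/
theorem gaussRes_coeffMap (Y : LaurentSeries A) (hY : coeffMap A.subtype Y ∈ F) :
    gaussRes A F hF ⟨⟨coeffMap A.subtype Y, hY⟩, coeffMap_mem_gaussRing A F hF Y hY⟩
      = coeffMap (IsLocalRing.residue A) Y := by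
  rw [gaussRes_eq A F hF _ (y₁ := Y) (y₂ := 1) (by rw [map_one]; exact one_ne_zero)
    (by rw [map_one, mul_one]), map_one, div_one]

/-- a one-unit: `u = Y₁ / Y₂` with equal nonzero reductions gives `u - 1 ∈ m_O`. -/
theorem sub_one_mem_nonunits_gaussRing (u : F) (y₁ y₂ : LaurentSeries A)
    (h12 : coeffMap (IsLocalRing.residue A) y₁ = coeffMap (IsLocalRing.residue A) y₂)
    (hy : coeffMap (IsLocalRing.residue A) y₂ ≠ 0)
    (h : (u : LaurentSeries K) * coeffMap A.subtype y₂ = coeffMap A.subtype y₁) :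
    u - 1 ∈ (gaussRing A F hF).nonunits := by
  rw [mem_nonunits_gaussRing_iff]
  refine ⟨y₁ - y₂, y₂, hy, by rw [map_sub, h12, sub_self], ?_⟩
  show ((u : LaurentSeries K) - 1) * _ = _
  rw [map_sub, sub_mul, one_mul, h]

end Ring

end Fermat.Agent.S18.H21
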