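/-
S18 / wave 4 (helper21): leaf B1 — the Gauss valuation ring `gaussFN A hA N` of
`FN N = modularFunctionFieldBar N`, for a valuation subring `A` of `ℚ̄` over a prime `ℓ`:

* carrier `{f | ∃ Y₁ Y₂ : LaurentSeries A, red Y₂ ≠ 0 ∧ f * Y₂ = Y₁}`            (`mem_gaussFN_iff`)
* `Setup.mem_iff`                                                       (`algebraMap_mem_gaussFN_iff`)
* `Setup.scale`                                                                    (`gaussFN_scale`)
* one-units: `IsOneUnit A N u → inclusion hle u - 1 ∈ (gaussFN A hA N').nonunits`  (`gaussFN_hone`)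
* reduction `resFN : gaussFN A hA N →+* LaurentSeries k`, kernel = nonunits, coefficientwise
  reduction on integral series.
-/
import Fermat.Agent.S18.H21.GaussField
import Fermat.Agent.S18.H74.TopDefs

set_option autoImplicit false

noncomputable section

namespace Fermat.Agent.S18.H21

open ModularCurve IntermediateField Fermat.Agent.S18.H74

section Generators

variable {K : Type*} [Field K] [CharZero K] (A : ValuationSubring K)

/-- the generators `j(q^d)` of the modular function field have integer coefficients. -/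
theorem divisorExpansions_subset_intSeries (N : ℕ) :
    divisorExpansions N ⊆ (intSeries A : Set (LaurentSeries ℚ)) := by
  rintro x ⟨d, hd, -, rfl⟩
  rw [SetLike.mem_coe, mem_intSeries_iff]
  intro n
  have h1 : qExpand ℚ d jq = coeffMap (Int.castRingHom ℚ) (jqNModC ℤ d) := by
    rw [coeffMap_jqNModC]; rfl
  rw [h1, coeffMap_coeff]
  have h2 : algebraMap ℚ K (Int.castRingHom ℚ ((jqNModC ℤ d).coeff n))
      = (((jqNModC ℤ d).coeff n : ℤ) : K) := by
    simp
  rw [h2]
  exact intCast_mem A _

end Generators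

section FN

variable (A : ValuationSubring Kb) {ℓ : ℕ} [Fact ℓ.Prime] (hA : A.LiesOverPrime ℓ) (N : ℕ)

include hA in
/-- every nonzero modular function is a constant times a Gauss unit. -/
theorem exists_isGaussUnit_FN (f : FN N) (hf : f ≠ 0) :
    ∃ c : Kb, c ≠ 0 ∧ IsGaussUnit A (c • (f : LaurentSeries Kb)) :=
  exists_isGaussUnit_of_mem_laurentBaseChange A hA (Fact.out : ℓ.Prime).ne_zero
    (divisorExpansions_subset_intSeries A N) f.2 (fun h => hf (Subtype.ext h))

/-- **The Gauss valuation ring of `F_N`** (leaf B1). -/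
def gaussFN : ValuationSubring (FN N) :=
  gaussRing A (modularFunctionFieldBar N) (exists_isGaussUnit_FN A hA N)

/-- the carrier of the Gauss ring, verbatim as in the leaf table. -/
theorem mem_gaussFN_iff (f : FN N) :
    f ∈ gaussFN A hA N ↔ ∃ y₁ y₂ : LaurentSeries A,
      coeffMap (IsLocalRing.residue A) y₂ ≠ 0 ∧
      (f : LaurentSeries Kb) * coeffMap A.subtype y₂ = coeffMap A.subtype y₁ :=
  Iff.rfl

/-- `Setup.mem_iff` for the Gauss ring. -/
theorem algebraMap_mem_gaussFN_iff (a : Kb) :
    algebraMap Kb (FN N) a ∈ gaussFN A hA N ↔ a ∈ A :=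
  algebraMap_mem_gaussRing_iff A _ _ a

/-- `Setup.scale` for the Gauss ring. -/
theorem gaussFN_scale (f : FN N) (hf : f ≠ 0) :
    ∃ c : Kb, c ≠ 0 ∧ algebraMap Kb (FN N) c * f ∈ gaussFN A hA N ∧
      (algebraMap Kb (FN N) c * f)⁻¹ ∈ gaussFN A hA N :=
  gaussRing_scale A _ _ f hf

/-- the nonunits of the Gauss ring. -/
theorem mem_nonunits_gaussFN_iff (f : FN N) :
    f ∈ (gaussFN A hA N).nonunits ↔ ∃ y₁ y₂ : LaurentSeries A,
      coeffMap (IsLocalRing.residue A) y₂ ≠ 0 ∧ coeffMap (IsLocalRing.residue A) y₁ = 0 ∧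
      (f : LaurentSeries Kb) * coeffMap A.subtype y₂ = coeffMap A.subtype y₁ :=
  mem_nonunits_gaussRing_iff A _ _ f

/-- integral series of `F_N` lie in the Gauss ring. -/
theorem coeffMap_mem_gaussFN (Y : LaurentSeries A)
    (hY : coeffMap A.subtype Y ∈ modularFunctionFieldBar N) :
    (⟨coeffMap A.subtype Y, hY⟩ : FN N) ∈ gaussFN A hA N :=
  coeffMap_mem_gaussRing A _ _ Y hY

/-- **`hone`** (last clause of `exists_setup`): one-units of `F_N` are one-units of the Gauss ring
of any `F_{N'} ⊇ F_N`. -/
theorem gaussFN_hone (N' : ℕ) (hle : modularFunctionFieldBar N ≤ modularFunctionFieldBar N')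
    (u : FN N) (hu : IsOneUnit A N u) :
    (IntermediateField.inclusion hle u : FN N') - 1 ∈ (gaussFN A hA N').nonunits := by
  obtain ⟨y₁, y₂, h12, hy, -, h⟩ := hu
  exact sub_one_mem_nonunits_gaussRing A _ _ (IntermediateField.inclusion hle u) y₁ y₂ h12 hy h

/-- **The reduction homomorphism** `O → k((q))` of the Gauss ring of `F_N`. -/
def resFN : gaussFN A hA N →+* LaurentSeries (IsLocalRing.ResidueField A) :=
  gaussRes A (modularFunctionFieldBar N) (exists_isGaussUnit_FN A hA N)

theorem resFN_eq (f : gaussFN A hA N) {y₁ y₂ : LaurentSeries A}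
    (hy : coeffMap (IsLocalRing.residue A) y₂ ≠ 0)
    (h : ((f : FN N) : LaurentSeries Kb) * coeffMap A.subtype y₂ = coeffMap A.subtype y₁) :
    resFN A hA N f
      = coeffMap (IsLocalRing.residue A) y₁ / coeffMap (IsLocalRing.residue A) y₂ :=
  gaussRes_eq A _ _ f hy h

/-- the kernel of the reduction homomorphism is the maximal ideal. -/
theorem resFN_eq_zero_iff (f : gaussFN A hA N) :
    resFN A hA N f = 0 ↔ (f : FN N) ∈ (gaussFN A hA N).nonunits :=
  gaussRes_eq_zero_iff A _ _ f

/-- on integral series the reduction homomorphism is the coefficientwise reduction. -/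
theorem resFN_coeffMap (Y : LaurentSeries A)
    (hY : coeffMap A.subtype Y ∈ modularFunctionFieldBar N) :
    resFN A hA N ⟨⟨coeffMap A.subtype Y, hY⟩, coeffMap_mem_gaussFN A hA N Y hY⟩
      = coeffMap (IsLocalRing.residue A) Y :=
  gaussRes_coeffMap A _ _ Y hY

end FN

end Fermat.Agent.S18.H21
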