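/-
S18 / wave 4 (helper21): NUMBER-FIELD DESCENT, part 3 (elements of `laurentBaseChange L F₀`).

Every element of `laurentBaseChange L F₀` (`L/ℚ` algebraic, e.g. `L = ℚ̄`; this is the function
field `F_N` over `ℚ̄` for `F₀ = modularFunctionFieldFull N`) comes, by `coeffMap`, from an element of
`laurentBaseChange K₀ F₀` for a number field `K₀ ⊆ L`; finitely many elements descend to a common
number field containing a prescribed one.
-/
import Mathlib
import Fermat.Prelude.Def_ModularCurve_LaurentCoeff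

set_option autoImplicit false

noncomputable section

namespace Fermat.Agent.S18.H21

open ModularCurve IntermediateField

section Functorial

variable {K₀ K₁ : Type*} [Field K₀] [Field K₁] [Algebra ℚ K₀] [Algebra ℚ K₁]
  (F₀ : IntermediateField ℚ (LaurentSeries ℚ))

theorem coeffMap_coeffEmb_of_ringHom (ψ : K₀ →+* K₁) (z : LaurentSeries ℚ) :
    coeffMap ψ (coeffEmb K₀ z) = coeffEmb K₁ z := by
  rw [coeffEmb, coeffMap_coeffMap]
  exact coeffMap_congr (Subsingleton.elim _ _) z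

omit [Algebra ℚ K₀] [Algebra ℚ K₁] in
theorem coeffMap_algebraMap_of_ringHom (ψ : K₀ →+* K₁) (c : K₀) :
    coeffMap ψ (algebraMap K₀ (LaurentSeries K₀) c) = algebraMap K₁ (LaurentSeries K₁) (ψ c) := by
  rw [algebraMap_laurentSeries_eq_single, algebraMap_laurentSeries_eq_single, coeffMap_single]

omit [Algebra ℚ K₀] [Algebra ℚ K₁] in
theorem coeffMap_injective_of_ringHom (ψ : K₀ →+* K₁) : Function.Injective (coeffMap ψ) :=
  (coeffMap ψ).injective

variable {F₀}

/-- `coeffMap ψ` maps `laurentBaseChange K₀ F₀` into `laurentBaseChange K₁ F₀`. -/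
theorem coeffMap_mem_laurentBaseChange_of_ringHom (ψ : K₀ →+* K₁) {x : LaurentSeries K₀}
    (hx : x ∈ laurentBaseChange K₀ F₀) : coeffMap ψ x ∈ laurentBaseChange K₁ F₀ := by
  rw [mem_laurentBaseChange_iff] at hx
  induction hx using Subfield.closure_induction with
  | mem y hy =>
      rcases hy with ⟨a, rfl⟩ | ⟨z, hz, rfl⟩
      · rw [coeffMap_algebraMap_of_ringHom]
        exact (laurentBaseChange K₁ F₀).algebraMap_mem _
      · rw [coeffMap_coeffEmb_of_ringHom]
        exact coeffEmb_mem_laurentBaseChange K₁ hz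
  | one => simp
  | add x y _ _ hx hy => simpa using add_mem hx hy
  | neg x _ hx => simpa using neg_mem hx
  | inv x _ hx => simpa using inv_mem hx
  | mul x y _ _ hx hy => simpa using mul_mem hx hy

end Functorial

section Descent

variable {L : Type*} [Field L] [Algebra ℚ L]
  (F₀ : IntermediateField ℚ (LaurentSeries ℚ))

/-- `x : L((q))` comes from an element of the function field over the subfield `K₀`. -/
def DescendsTo (K₀ : IntermediateField ℚ L) (x : LaurentSeries L) : Prop :=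
  ∃ x₀ : LaurentSeries K₀, x₀ ∈ laurentBaseChange K₀ F₀ ∧ coeffMap (algebraMap K₀ L) x₀ = x

variable {F₀}

theorem DescendsTo.mem {K₀ : IntermediateField ℚ L} {x : LaurentSeries L}
    (h : DescendsTo F₀ K₀ x) : x ∈ laurentBaseChange L F₀ := by
  obtain ⟨x₀, hx₀, rfl⟩ := h
  exact coeffMap_mem_laurentBaseChange_of_ringHom _ hx₀

theorem DescendsTo.mono {K₀ K₁ : IntermediateField ℚ L} (h01 : K₀ ≤ K₁) {x : LaurentSeries L}
    (h : DescendsTo F₀ K₀ x) : DescendsTo F₀ K₁ x := by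
  obtain ⟨x₀, hx₀, rfl⟩ := h
  refine ⟨coeffMap (IntermediateField.inclusion h01 : K₀ →+* K₁) x₀,
    coeffMap_mem_laurentBaseChange_of_ringHom _ hx₀, ?_⟩
  rw [coeffMap_coeffMap]
  exact coeffMap_congr (RingHom.ext fun a => rfl) x₀

theorem descendsTo_algebraMap {K₀ : IntermediateField ℚ L} {a : L} (ha : a ∈ K₀) :
    DescendsTo F₀ K₀ (algebraMap L (LaurentSeries L) a) :=
  ⟨algebraMap K₀ (LaurentSeries K₀) ⟨a, ha⟩, (laurentBaseChange K₀ F₀).algebraMap_mem _,
    coeffMap_algebraMap_of_ringHom _ _⟩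

theorem descendsTo_coeffEmb (K₀ : IntermediateField ℚ L) {z : LaurentSeries ℚ} (hz : z ∈ F₀) :
    DescendsTo F₀ K₀ (coeffEmb L z) :=
  ⟨coeffEmb K₀ z, coeffEmb_mem_laurentBaseChange K₀ hz, coeffMap_coeffEmb_of_ringHom _ _⟩

theorem DescendsTo.add {K₀ : IntermediateField ℚ L} {x y : LaurentSeries L}
    (hx : DescendsTo F₀ K₀ x) (hy : DescendsTo F₀ K₀ y) : DescendsTo F₀ K₀ (x + y) := by
  obtain ⟨x₀, hx₀, rfl⟩ := hx
  obtain ⟨y₀, hy₀, rfl⟩ := hy
  exact ⟨x₀ + y₀, add_mem hx₀ hy₀, map_add _ _ _⟩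

theorem DescendsTo.mul {K₀ : IntermediateField ℚ L} {x y : LaurentSeries L}
    (hx : DescendsTo F₀ K₀ x) (hy : DescendsTo F₀ K₀ y) : DescendsTo F₀ K₀ (x * y) := by
  obtain ⟨x₀, hx₀, rfl⟩ := hx
  obtain ⟨y₀, hy₀, rfl⟩ := hy
  exact ⟨x₀ * y₀, mul_mem hx₀ hy₀, map_mul _ _ _⟩

theorem DescendsTo.neg {K₀ : IntermediateField ℚ L} {x : LaurentSeries L}
    (hx : DescendsTo F₀ K₀ x) : DescendsTo F₀ K₀ (-x) := by
  obtain ⟨x₀, hx₀, rfl⟩ := hx
  exact ⟨-x₀, neg_mem hx₀, map_neg _ _⟩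

theorem DescendsTo.inv {K₀ : IntermediateField ℚ L} {x : LaurentSeries L}
    (hx : DescendsTo F₀ K₀ x) : DescendsTo F₀ K₀ x⁻¹ := by
  obtain ⟨x₀, hx₀, rfl⟩ := hx
  exact ⟨x₀⁻¹, inv_mem hx₀, map_inv₀ _ _⟩

theorem DescendsTo.div {K₀ : IntermediateField ℚ L} {x y : LaurentSeries L}
    (hx : DescendsTo F₀ K₀ x) (hy : DescendsTo F₀ K₀ y) : DescendsTo F₀ K₀ (x / y) := by
  rw [div_eq_mul_inv]
  exact hx.mul hy.inv

theorem descendsTo_one (K₀ : IntermediateField ℚ L) : DescendsTo F₀ K₀ (1 : LaurentSeries L) :=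
  ⟨1, one_mem _, map_one _⟩

theorem descendsTo_zero (K₀ : IntermediateField ℚ L) : DescendsTo F₀ K₀ (0 : LaurentSeries L) :=
  ⟨0, zero_mem _, map_zero _⟩

/-- The element over `K₀` is unique. -/
theorem DescendsTo.unique {K₀ : IntermediateField ℚ L} {x₀ y₀ : LaurentSeries K₀}
    (h : coeffMap (algebraMap K₀ L) x₀ = coeffMap (algebraMap K₀ L) y₀) : x₀ = y₀ :=
  (coeffMap (algebraMap K₀ L)).injective h

variable [Algebra.IsAlgebraic ℚ L]

/-- **(N3)** Every element of `laurentBaseChange L F₀` descends to a number field. -/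
theorem exists_descendsTo {x : LaurentSeries L} (hx : x ∈ laurentBaseChange L F₀) :
    ∃ K₀ : IntermediateField ℚ L, FiniteDimensional ℚ K₀ ∧ DescendsTo F₀ K₀ x := by
  rw [mem_laurentBaseChange_iff] at hx
  induction hx using Subfield.closure_induction with
  | mem y hy =>
      rcases hy with ⟨a, rfl⟩ | ⟨z, hz, rfl⟩
      · refine ⟨ℚ⟮a⟯, IntermediateField.adjoin.finiteDimensional
          (Algebra.IsIntegral.isIntegral a), descendsTo_algebraMap ?_⟩
        exact IntermediateField.mem_adjoin_simple_self ℚ a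
      · exact ⟨⊥, inferInstance, descendsTo_coeffEmb ⊥ hz⟩
  | one => exact ⟨⊥, inferInstance, descendsTo_one ⊥⟩
  | add x y _ _ hx hy =>
      obtain ⟨K₀, h0, hx⟩ := hx
      obtain ⟨K₁, h1, hy⟩ := hy
      exact ⟨K₀ ⊔ K₁, inferInstance, (hx.mono le_sup_left).add (hy.mono le_sup_right)⟩
  | neg x _ hx =>
      obtain ⟨K₀, h0, hx⟩ := hx
      exact ⟨K₀, h0, hx.neg⟩
  | inv x _ hx =>
      obtain ⟨K₀, h0, hx⟩ := hx
      exact ⟨K₀, h0, hx.inv⟩
  | mul x y _ _ hx hy =>
      obtain ⟨K₀, h0, hx⟩ := hx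
      obtain ⟨K₁, h1, hy⟩ := hy
      exact ⟨K₀ ⊔ K₁, inferInstance, (hx.mono le_sup_left).mul (hy.mono le_sup_right)⟩

/-- **(N3)** Finitely many elements of `laurentBaseChange L F₀` descend to a common number field
containing a prescribed number field `K₁`. -/
theorem exists_descendsTo_finset (s : Finset (LaurentSeries L))
    (hs : ∀ x ∈ s, x ∈ laurentBaseChange L F₀) (K₁ : IntermediateField ℚ L)
    [FiniteDimensional ℚ K₁] :
    ∃ K₀ : IntermediateField ℚ L, K₁ ≤ K₀ ∧ FiniteDimensional ℚ K₀ ∧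
      ∀ x ∈ s, DescendsTo F₀ K₀ x := by
  classical
  induction s using Finset.induction_on with
  | empty => exact ⟨K₁, le_rfl, inferInstance, fun x hx => absurd hx (Finset.notMem_empty x)⟩
  | insert a s _ ih =>
      obtain ⟨K₀, h10, hfd, hK₀⟩ := ih fun x hx => hs x (Finset.mem_insert_of_mem hx)
      obtain ⟨K₂, hfd2, ha⟩ := exists_descendsTo (hs a (Finset.mem_insert_self a s))
      refine ⟨K₀ ⊔ K₂, le_trans h10 le_sup_left, inferInstance, ?_⟩
      intro x hx
      rcases Finset.mem_insert.mp hx with rfl | hx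
      · exact ha.mono le_sup_right
      · exact (hK₀ x hx).mono le_sup_left

/-- Finitely many elements of `L` lie in a common number field containing a prescribed one. -/
theorem exists_finiteDimensional_le (s : Finset L) (K₁ : IntermediateField ℚ L)
    [FiniteDimensional ℚ K₁] :
    ∃ K₀ : IntermediateField ℚ L, K₁ ≤ K₀ ∧ FiniteDimensional ℚ K₀ ∧ ∀ x ∈ s, x ∈ K₀ := by
  classical
  induction s using Finset.induction_on with
  | empty => exact ⟨K₁, le_rfl, inferInstance, fun x hx => absurd hx (Finset.notMem_empty x)⟩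
  | insert a s _ ih =>
      obtain ⟨K₀, h10, hfd, hK₀⟩ := ih
      have : FiniteDimensional ℚ ℚ⟮a⟯ :=
        IntermediateField.adjoin.finiteDimensional (Algebra.IsIntegral.isIntegral a)
      refine ⟨K₀ ⊔ ℚ⟮a⟯, le_trans h10 le_sup_left, inferInstance, ?_⟩
      intro x hx
      rcases Finset.mem_insert.mp hx with rfl | hx
      · exact (le_sup_right : ℚ⟮x⟯ ≤ K₀ ⊔ ℚ⟮x⟯) (IntermediateField.mem_adjoin_simple_self ℚ x)
      · exact (le_sup_left : K₀ ≤ K₀ ⊔ ℚ⟮a⟯) (hK₀ x hx)

end Descent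

end Fermat.Agent.S18.H21
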